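/-
Program C / S20 (LOW, cusp half; helper24).

Generic lemmas for the dictionary "regular differential ⇒ cusp form":
* `cuspFormOfHol` : a holomorphic function on `ℍ` of weight 2 for `Γ₀(N)` vanishing at all cusps,
  as an element of `CuspForm (Gamma0 N) 2`;
* `isZeroAtImInfty_of_qn_quotient` : a quotient of two functions with `q_N`-expansions, the order of
  the numerator larger than that of the denominator, tends to `0` at `i∞`;
* weight two from a defining equation `H * a = b * J`.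
-/
import Fermat.Agent.X0.Integrality
import Fermat.Prelude.Thm_CongruenceSubgroup_one_mem_strictPeriods_Gamma0
import Fermat.Prelude.Def_FLTPrelim_Modularity

set_option autoImplicit false
set_option linter.unusedSectionVars false

open ModularCurve UpperHalfPlane ModularForm
open scoped Topology Manifold MatrixGroups

noncomputable section

namespace Fermat.Agent.S20.CuspZero

open Fermat.Agent.X0 Fermat.Agent.X0.Analytic Fermat.Agent.X0.JQExp

/-! ### Packaging a cusp form -/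

/-- A holomorphic function of weight 2 for `Γ₀(N)` which vanishes at all cusps, as a cusp form. -/
def cuspFormOfHol (N : ℕ) [NeZero N] (f : ℍ → ℂ) (hf : f ∈ HolH)
    (hinv : ∀ γ ∈ CongruenceSubgroup.Gamma0 N, f ∣[(2 : ℤ)] γ = f)
    (hzero : ∀ γ : SL(2, ℤ), IsZeroAtImInfty (f ∣[(2 : ℤ)] γ)) :
    CuspForm (CongruenceSubgroup.Gamma0 N) 2 where
  toFun := f
  slash_action_eq' A hA := by
    obtain ⟨γ, hγ, rfl⟩ := hA
    exact hinv γ hγ
  holo' := hf
  zero_at_cusps' {c} hc := by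
    rw [Subgroup.IsArithmetic.isCusp_iff_isCusp_SL2Z] at hc
    rw [OnePoint.isZeroAt_iff_forall_SL2Z hc]
    intro γ _
    exact hzero γ

@[simp] theorem coe_cuspFormOfHol (N : ℕ) [NeZero N] (f : ℍ → ℂ) (hf : f ∈ HolH)
    (hinv : ∀ γ ∈ CongruenceSubgroup.Gamma0 N, f ∣[(2 : ℤ)] γ = f)
    (hzero : ∀ γ : SL(2, ℤ), IsZeroAtImInfty (f ∣[(2 : ℤ)] γ)) :
    (cuspFormOfHol N f hf hinv hzero : ℍ → ℂ) = f := rfl

/-! ### Vanishing at `i∞` of a quotient -/

/-- The order of the Taylor series is the analytic order. -/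
theorem order_tps {f : ℂ → ℂ} (hf : AnalyticAt ℂ f 0) :
    (tps f).order = analyticOrderAt f 0 := by
  apply ENat.eq_of_forall_natCast_le_iff
  intro n
  rw [natCast_le_analyticOrderAt_iff_iteratedDeriv_eq_zero hf]
  constructor
  · intro h i hi
    have h1 : PowerSeries.coeff i (tps f) = 0 :=
      PowerSeries.coeff_of_lt_order i (lt_of_lt_of_le (by exact_mod_cast hi) h)
    rw [tps_coeff] at h1
    rcases mul_eq_zero.mp h1 with h2 | h2
    · exact absurd h2 (inv_ne_zero (by exact_mod_cast Nat.factorial_ne_zero i))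
    · exact h2
  · intro h
    apply PowerSeries.nat_le_order
    intro i hi
    rw [tps_coeff, h i hi, mul_zero]

/-- `qh N` tends to `0` through nonzero values at `i∞`. -/
theorem tendsto_qh_nhdsNE (N : ℕ) [NeZero N] :
    Filter.Tendsto (fun z : ℍ => qh N z) atImInfty (𝓝[≠] (0 : ℂ)) := by
  have hNpos : 0 < (N : ℝ) := by exact_mod_cast Nat.pos_of_ne_zero (NeZero.ne N)
  exact (Function.Periodic.qParam_tendsto hNpos).comp tendsto_coe_atImInfty

/-- A function `g` with `g * g₁ = g₂`, where `g₁`, `g₂` have `q_N`-expansions `T₁ ≠ 0` and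
`T₂ = E * T₁` with `E` a power series without constant term, tends to `0` at `i∞`. -/
theorem isZeroAtImInfty_of_qn_mul (N : ℕ) [NeZero N] {g g₁ g₂ : ℍ → ℂ}
    {T₁ T₂ E : LaurentSeries ℂ} (h₁ : IntgQN N g₁ T₁) (h₂ : IntgQN N g₂ T₂) (hT₁ : T₁ ≠ 0)
    (hmul : ∀ z, g z * g₁ z = g₂ z) (hE : T₂ = E * T₁) (hE0 : ∀ n : ℤ, n ≤ 0 → E.coeff n = 0) :
    IsZeroAtImInfty g := by
  obtain ⟨a, A, hA, hT₁e, hgA⟩ := h₁
  obtain ⟨b, B, hB, hT₂e, hgB⟩ := h₂
  -- `E` as a power series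
  set P : PowerSeries ℂ := PowerSeries.mk fun n => E.coeff n with hP
  have hEP : E = lau 0 P := by
    ext n
    rw [lau_eq_laurentOf, lor_laurentOf_coeff]
    simp only [Nat.cast_zero, add_zero]
    split_ifs with hn
    · obtain ⟨m, rfl⟩ := Int.eq_ofNat_of_zero_le hn
      rw [Int.toNat_natCast, hP, PowerSeries.coeff_mk]
    · exact hE0 n (by omega)
  have hP1 : (1 : ℕ∞) ≤ P.order := by
    have : ((1 : ℕ) : ℕ∞) ≤ P.order := by
      apply PowerSeries.nat_le_order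
      intro i hi
      have hi0 : i = 0 := by omega
      rw [hi0, hP, PowerSeries.coeff_mk]
      exact hE0 _ (by simp)
    simpa using this
  -- the identity of power series
  have hps : PowerSeries.X ^ a * tps B = PowerSeries.X ^ b * (P * tps A) := by
    apply lau_injective (b + a)
    rw [← lau_shift b a, ← hT₂e, hE, hEP, hT₁e, lau_mul, zero_add, add_comm b a, ← lau_shift a b]
  -- orders
  have hAan : AnalyticAt ℂ A 0 := analyticAt_zero_of_diffOn hA
  have hBan : AnalyticAt ℂ B 0 := analyticAt_zero_of_diffOn hB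
  have htpsA : tps A ≠ 0 := by
    intro h0
    apply hT₁
    rw [hT₁e, h0, lau]
    simp
  have hkA : analyticOrderAt A 0 ≠ ⊤ := by
    rw [← order_tps hAan]
    intro h
    exact htpsA (PowerSeries.order_eq_top.mp h)
  obtain ⟨k, hk⟩ := ENat.ne_top_iff_exists.mp hkA
  obtain ⟨A₁, hA₁an, hA₁0, hA₁eq⟩ := (hAan.analyticOrderAt_eq_natCast).mp hk.symm
  -- the numerator
  have hBtan : AnalyticAt ℂ (fun q : ℂ => q ^ a * B q) 0 :=
    analyticAt_zero_of_diffOn (diffOn_pow_mul hB a)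
  have hordB : ((b + 1 + k : ℕ) : ℕ∞) ≤ analyticOrderAt (fun q : ℂ => q ^ a * B q) 0 := by
    rw [← order_tps hBtan, tps_pow_mul hB a, hps, PowerSeries.order_mul, PowerSeries.order_mul,
      PowerSeries.order_X_pow, order_tps hAan, ← hk]
    push_cast
    calc (b : ℕ∞) + 1 + k = b + (1 + k) := by ring
      _ ≤ b + (P.order + k) := by gcongr
  obtain ⟨B₂, hB₂an, hB₂eq⟩ := (natCast_le_analyticOrderAt hBtan).mp hordB
  -- the limit
  set Ψ : ℂ → ℂ := fun w => w * B₂ w / A₁ w with hΨ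
  have hΨc : ContinuousAt Ψ 0 :=
    (continuousAt_id.mul hB₂an.continuousAt).div hA₁an.continuousAt hA₁0
  have hΨ0 : Ψ 0 = 0 := by simp [hΨ]
  have hev : ∀ᶠ w in 𝓝[≠] (0 : ℂ), A₁ w ≠ 0 ∧ A w = (w - 0) ^ k • A₁ w ∧
      w ^ a * B w = (w - 0) ^ (b + 1 + k) • B₂ w ∧ w ≠ 0 := by
    have h1 : ∀ᶠ w in 𝓝 (0 : ℂ), A₁ w ≠ 0 := hA₁an.continuousAt.eventually_ne hA₁0
    filter_upwards [nhdsWithin_le_nhds h1, nhdsWithin_le_nhds hA₁eq, nhdsWithin_le_nhds hB₂eq,
      self_mem_nhdsWithin] with w h1 h2 h3 h4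
    exact ⟨h1, h2, h3, h4⟩
  have hev' : ∀ᶠ z in atImInfty, g z = Ψ (qh N z) := by
    filter_upwards [(tendsto_qh_nhdsNE N).eventually hev] with z hz
    obtain ⟨hz1, hz2, hz3, hz4⟩ := hz
    set w := qh N z with hw
    have hq : qH (intg_divH N z) = w := by
      rw [← intg_qh_scaleH N (intg_divH N z), intg_scaleH_divH]
    have e1 : g₁ z * w ^ a = A w := by
      have := hgA (intg_divH N z)
      simp only [intg_scaleH_divH] at this
      rw [hq] at this
      exact this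
    have e2 : g₂ z * w ^ b = B w := by
      have := hgB (intg_divH N z)
      simp only [intg_scaleH_divH] at this
      rw [hq] at this
      exact this
    simp only [sub_zero, smul_eq_mul] at hz2 hz3
    have e3 : g z * (w ^ (b + k) * A₁ w) = w ^ (b + k) * (w * B₂ w) := by
      have : g z * (A w * w ^ b) = w ^ a * B w := by
        rw [← e1, ← e2, ← hmul z]
        ring
      rw [hz2, hz3] at this
      linear_combination this
    have hwk : w ^ (b + k) ≠ 0 := pow_ne_zero _ hz4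
    rw [hΨ]
    show g z = w * B₂ w / A₁ w
    rw [eq_div_iff hz1]
    have e4 : w ^ (b + k) * (g z * A₁ w) = w ^ (b + k) * (w * B₂ w) := by
      linear_combination e3
    exact mul_left_cancel₀ hwk e4
  have hlim : Filter.Tendsto (fun z : ℍ => Ψ (qh N z)) atImInfty (𝓝 0) := by
    have h1 : Filter.Tendsto (fun z : ℍ => qh N z) atImInfty (𝓝 0) :=
      (tendsto_qh_nhdsNE N).mono_right nhdsWithin_le_nhds
    have := hΨc.tendsto.comp h1
    rwa [hΨ0] at this
  exact hlim.congr' (hev'.mono fun z hz => hz.symm)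

/-! ### Weight two from a defining equation -/

/-- The slash of `H` with `H * a = b * J`, `J` of weight two. -/
theorem slash_mul_eq {H a b J : ℍ → ℂ} (hmul : ∀ z, H z * a z = b z * J z)
    (hJ : ∀ (γ : SL(2, ℤ)) (z : ℍ), J (γ • z) = denom γ z ^ 2 * J z) (γ : SL(2, ℤ)) (z : ℍ) :
    (H ∣[(2 : ℤ)] γ) z * compSL a γ z = compSL b γ z * J z := by
  have hd : denom γ z ≠ 0 := denom_ne_zero γ z
  rw [SL_slash_apply]
  show H (γ • z) * denom γ z ^ (-(2 : ℤ)) * a (γ • z) = b (γ • z) * J z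
  have h1 := hmul (γ • z)
  rw [hJ] at h1
  have h2 : denom γ z ^ (-(2 : ℤ)) = (denom γ z ^ 2)⁻¹ := by
    rw [zpow_neg]
    norm_cast
  rw [h2]
  have hd2 : denom γ z ^ 2 ≠ 0 := pow_ne_zero _ hd
  field_simp
  linear_combination h1

/-- Weight two for `Γ₀(N)` from the defining equation. -/
theorem slash_eq_of_mul_eq (N : ℕ) {H a b J : ℍ → ℂ} (hH : H ∈ HolH) (ha : a ∈ HolH)
    (ha0 : a ≠ 0) (hmul : ∀ z, H z * a z = b z * J z)
    (hJ : ∀ (γ : SL(2, ℤ)) (z : ℍ), J (γ • z) = denom γ z ^ 2 * J z)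
    (hainv : ∀ γ ∈ CongruenceSubgroup.Gamma0 N, compSL a γ = a)
    (hbinv : ∀ γ ∈ CongruenceSubgroup.Gamma0 N, compSL b γ = b)
    (γ : SL(2, ℤ)) (hγ : γ ∈ CongruenceSubgroup.Gamma0 N) : H ∣[(2 : ℤ)] γ = H := by
  have hH' : H ∣[(2 : ℤ)] γ ∈ HolH := by
    have : MDifferentiable 𝓘(ℂ) 𝓘(ℂ) (H ∣[(2 : ℤ)] (γ : GL (Fin 2) ℝ)) :=
      MDifferentiable.slash hH 2 _
    exact this
  have hzero : (H ∣[(2 : ℤ)] γ - H) * a = 0 := by
    funext z
    have h1 := slash_mul_eq hmul hJ γ z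
    rw [hainv γ hγ, hbinv γ hγ] at h1
    simp only [Pi.mul_apply, Pi.sub_apply, Pi.zero_apply]
    rw [sub_mul, h1, hmul z, sub_self]
  rcases mul_eq_zero_HolH (HolH.sub_mem hH' hH) ha hzero with h | h
  · exact sub_eq_zero.mp h
  · exact absurd h ha0

/-! ### `q`-coefficients at `∞` -/

/-- A holomorphic `1`-periodic function bounded at `i∞` has its Mathlib `q`-expansion as
`HasQExp`-expansion. -/
theorem hasQExp_qExpansion {f : ℍ → ℂ} (hfper : Function.Periodic (f ∘ ofComplex) 1)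
    (hfhol : f ∈ HolH) (hfbdd : IsBoundedAtImInfty f) :
    HasQExp (lau 0 (qExpansion 1 f)) f := by
  refine ⟨0, cuspFunction 1 f,
    UpperHalfPlane.differentiableOn_cuspFunction_ball one_pos hfper hfhol hfbdd, ?_, fun z => ?_⟩
  · have : tps (cuspFunction 1 f) = qExpansion 1 f := by
      ext m
      rw [tps_coeff, qExpansion_coeff]
    rw [this]
  · rw [pow_zero, mul_one]
    exact (UpperHalfPlane.eq_cuspFunction z one_ne_zero hfper).symm

/-- Coefficients of `lau 0`. -/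
theorem coeff_lau_zero (P : PowerSeries ℂ) (n : ℕ) : (lau 0 P).coeff n = PowerSeries.coeff n P := by
  rw [lau_eq_laurentOf, lor_laurentOf_coeff]
  simp

/-- The `q`-coefficients of a quotient. -/
theorem qCoeff_of_mul_eq {f g₁ g₂ : ℍ → ℂ} {T₁ T₂ : LaurentSeries ℂ}
    (hfper : Function.Periodic (f ∘ ofComplex) 1) (hfhol : f ∈ HolH)
    (hfbdd : IsBoundedAtImInfty f) (h₁ : HasQExp T₁ g₁) (h₂ : HasQExp T₂ g₂) (hT₁ : T₁ ≠ 0)
    (hmul : ∀ z, f z * g₁ z = g₂ z) (n : ℕ) :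
    ModularFormClass.qCoeff f n = (T₂ / T₁).coeff n := by
  have h := (hasQExp_qExpansion hfper hfhol hfbdd).mul h₁
  have hfun : f * g₁ = g₂ := funext hmul
  rw [hfun] at h
  have heq : lau 0 (qExpansion 1 f) * T₁ = T₂ := h.unique_left h₂
  have : lau 0 (qExpansion 1 f) = T₂ / T₁ := by
    rw [eq_div_iff hT₁, heq]
  rw [← this, coeff_lau_zero]
  rfl

/-- The quotient series has no negative part. -/
theorem coeff_div_eq_zero_of_neg {f g₁ g₂ : ℍ → ℂ} {T₁ T₂ : LaurentSeries ℂ}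
    (hfper : Function.Periodic (f ∘ ofComplex) 1) (hfhol : f ∈ HolH)
    (hfbdd : IsBoundedAtImInfty f) (h₁ : HasQExp T₁ g₁) (h₂ : HasQExp T₂ g₂) (hT₁ : T₁ ≠ 0)
    (hmul : ∀ z, f z * g₁ z = g₂ z) (k : ℤ) (hk : k < 0) :
    (T₂ / T₁).coeff k = 0 := by
  have h := (hasQExp_qExpansion hfper hfhol hfbdd).mul h₁
  have hfun : f * g₁ = g₂ := funext hmul
  rw [hfun] at h
  have heq : lau 0 (qExpansion 1 f) * T₁ = T₂ := h.unique_left h₂
  have : lau 0 (qExpansion 1 f) = T₂ / T₁ := by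
    rw [eq_div_iff hT₁, heq]
  rw [← this, lau_eq_laurentOf, lor_laurentOf_coeff, if_neg]
  push_cast
  omega

/-! ### Coefficients of a product of Laurent series -/

theorem coeff_mul_eq_zero_of_lt {R : Type*} [CommRing R] (X Y : LaurentSeries R) (a b : ℤ)
    (hX : ∀ n < a, X.coeff n = 0) (hY : ∀ n < b, Y.coeff n = 0) (n : ℤ) (hn : n < a + b) :
    (X * Y).coeff n = 0 := by
  rw [HahnSeries.coeff_mul]
  apply Finset.sum_eq_zero
  intro ij hij
  rw [Finset.mem_antidiagonal] at hij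
  obtain ⟨h1, h2, h3⟩ := hij
  by_contra _
  have ha : a ≤ ij.1 := by
    by_contra h
    exact h1 (hX _ (not_le.mp h))
  have hb : b ≤ ij.2 := by
    by_contra h
    exact h2 (hY _ (not_le.mp h))
  omega

/-- Coefficients of `qExpand`. -/
theorem coeff_qExpand_eq_zero_of_lt {R : Type*} [CommRing R] (N : ℕ) [NeZero N]
    (Y : LaurentSeries R) (hY : ∀ n : ℤ, n < -1 → Y.coeff n = 0) (n : ℤ) (hn : n < -(N : ℤ)) :
    (qExpand R N Y).coeff n = 0 := by
  by_cases hd : (N : ℤ) ∣ n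
  · obtain ⟨m, rfl⟩ := hd
    rw [qExpand_coeff_mul]
    apply hY
    have hNpos : (0 : ℤ) < N := by exact_mod_cast Nat.pos_of_ne_zero (NeZero.ne N)
    by_contra h
    have : -1 ≤ m := not_lt.mp h
    nlinarith
  · exact qExpand_coeff_of_not_dvd N Y hd

/-! ### Assembly for an interface pair `(D, C)` -/

section Assembly

variable (N : ℕ) [NeZero N] (D : RealizeData N) (C : CuspData N D)

/-- The (level one) `q`-expansion of `Θ u` is the formal element `u`. -/
theorem hasQExp_Θ (u : Rsub N) :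
    HasQExp (toC ((u : FF N) : LaurentSeries Kbar)) (D.Θ u) := by
  obtain ⟨m, P, hP, hu⟩ := D.isQExp u
  rw [hu, toC, lor_coeffMap_laurentOf]
  exact intg_hasQExp_of_isQExp hP

/-- **LOW, cusp half.** Let `H` be holomorphic on `ℍ` with `H * Θ s = Θ r * DJ`, where `DJ` has
weight two for `SL(2,ℤ)` and `q`-expansion `ΘJ` (of order `≥ -1`).  If all expansions
`T_γ (r/s)` have order `> N`, then `H` is a cusp form of weight two on `Γ₀(N)` whose
`q`-coefficients are those of `(r/s) * ΘJ` (mapped by `ι`). -/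
theorem exists_cuspForm_of_orders (DJ : ℍ → ℂ) (ΘJ : LaurentSeries Kbar)
    (hDJw : ∀ (γ : SL(2, ℤ)) (z : ℍ), DJ (γ • z) = denom γ z ^ 2 * DJ z)
    (hDJq : HasQExp (toC ΘJ) DJ) (hΘJ : ∀ n : ℤ, n < -1 → ΘJ.coeff n = 0)
    (r s : Rsub N) (hs : s ≠ 0) (H : ℍ → ℂ) (hH : H ∈ HolH)
    (hmul : ∀ z, H z * D.Θ s z = D.Θ r z * DJ z)
    (hord : ∀ (γ : SL(2, ℤ)) (n : ℤ), n ≤ N →
      (C.T γ ((r : FF N) / (s : FF N))).coeff n = 0) :
    ∃ f : CuspForm (CongruenceSubgroup.Gamma0 N) 2, (⇑f = H) ∧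
      ∀ n : ℕ, ModularFormClass.qCoeff f n
        = iotaK (((((r : FF N) / (s : FF N) : FF N) : LaurentSeries Kbar) * ΘJ).coeff n) := by
  have hs' : (s : FF N) ≠ 0 := fun h => hs (Subtype.ext h)
  have hΘs0 : D.Θ s ≠ 0 := by
    intro h
    apply hs
    apply D.injective
    rw [h, map_zero]
  -- weight two
  have hinv : ∀ γ ∈ CongruenceSubgroup.Gamma0 N, H ∣[(2 : ℤ)] γ = H := fun γ hγ =>
    slash_eq_of_mul_eq N hH (D.mem_HolH s) hΘs0 hmul hDJw (fun γ hγ => D.invariant s γ hγ)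
      (fun γ hγ => D.invariant r γ hγ) γ hγ
  -- vanishing at the cusps
  have hY : ∀ n : ℤ, n < -(N : ℤ) → (qExpand ℂ N (toC ΘJ)).coeff n = 0 := by
    apply coeff_qExpand_eq_zero_of_lt
    intro n hn
    rw [toC_coeff, hΘJ n hn, map_zero]
  have hzero : ∀ γ : SL(2, ℤ), IsZeroAtImInfty (H ∣[(2 : ℤ)] γ) := by
    intro γ
    have hsplit : C.T γ (r : FF N) = C.T γ ((r : FF N) / (s : FF N)) * C.T γ (s : FF N) := by
      rw [← map_mul, div_mul_cancel₀ _ hs']
    refine isZeroAtImInfty_of_qn_mul N (g₁ := compSL (D.Θ s) γ) (g₂ := compSL (D.Θ r) γ * DJ)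
      (T₁ := toC (C.T γ (s : FF N))) (T₂ := toC (C.T γ (r : FF N)) * qExpand ℂ N (toC ΘJ))
      (E := toC (C.T γ ((r : FF N) / (s : FF N))) * qExpand ℂ N (toC ΘJ))
      (intg_T_spec N D C γ s) (intg_qn_mul N (intg_T_spec N D C γ r) (hDJq.qExpand N)) ?_
      (fun z => slash_mul_eq hmul hDJw γ z) ?_ ?_
    · intro h0
      have : C.T γ (s : FF N) = 0 := toC_injective (by rw [h0, map_zero])
      exact hs' ((map_eq_zero (C.T γ)).mp this)
    · rw [hsplit, map_mul]
      ring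
    · intro n hn
      refine coeff_mul_eq_zero_of_lt _ _ ((N : ℤ) + 1) (-(N : ℤ)) ?_ hY n (by omega)
      intro m hm
      rw [toC_coeff, hord γ m (by omega), map_zero]
  refine ⟨cuspFormOfHol N H hH hinv hzero, rfl, fun n => ?_⟩
  -- the `q`-coefficients
  have hfper : Function.Periodic (H ∘ ofComplex) 1 := by
    have := SlashInvariantFormClass.periodic_comp_ofComplex (cuspFormOfHol N H hH hinv hzero)
      (CongruenceSubgroup.one_mem_strictPeriods_Gamma0 N)
    exact this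
  have hfbdd : IsBoundedAtImInfty H := by
    have := (hzero 1).boundedAtFilter
    rwa [SlashAction.slash_one] at this
  have hT₁ : toC ((s : FF N) : LaurentSeries Kbar) ≠ 0 := by
    intro h0
    apply hs'
    have : ((s : FF N) : LaurentSeries Kbar) = 0 := toC_injective (by rw [h0, map_zero])
    exact Subtype.ext this
  have hq := qCoeff_of_mul_eq hfper hH hfbdd (hasQExp_Θ N D s) ((hasQExp_Θ N D r).mul hDJq) hT₁
    hmul n
  rw [coe_cuspFormOfHol, hq, ← toC_coeff]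
  congr 1
  have hcoe : (((r : FF N) / (s : FF N) : FF N) : LaurentSeries Kbar)
      = ((r : FF N) : LaurentSeries Kbar) / ((s : FF N) : LaurentSeries Kbar) := rfl
  rw [hcoe, map_mul, map_div₀]
  ring

/-- `exists_cuspForm_of_orders` together with the vanishing of the negative coefficients of
`(r/s) * ΘJ`. -/
theorem exists_cuspForm_of_orders_full (DJ : ℍ → ℂ) (ΘJ : LaurentSeries Kbar)
    (hDJw : ∀ (γ : SL(2, ℤ)) (z : ℍ), DJ (γ • z) = denom γ z ^ 2 * DJ z)
    (hDJq : HasQExp (toC ΘJ) DJ) (hΘJ : ∀ n : ℤ, n < -1 → ΘJ.coeff n = 0)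
    (r s : Rsub N) (hs : s ≠ 0) (H : ℍ → ℂ) (hH : H ∈ HolH)
    (hmul : ∀ z, H z * D.Θ s z = D.Θ r z * DJ z)
    (hord : ∀ (γ : SL(2, ℤ)) (n : ℤ), n ≤ N →
      (C.T γ ((r : FF N) / (s : FF N))).coeff n = 0) :
    ∃ f : CuspForm (CongruenceSubgroup.Gamma0 N) 2, (⇑f = H) ∧
      (∀ n : ℕ, ModularFormClass.qCoeff f n
        = iotaK (((((r : FF N) / (s : FF N) : FF N) : LaurentSeries Kbar) * ΘJ).coeff n)) ∧
      ∀ k : ℤ, k < 0 →
        ((((r : FF N) / (s : FF N) : FF N) : LaurentSeries Kbar) * ΘJ).coeff k = 0 := by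
  obtain ⟨f, hf, hq⟩ := exists_cuspForm_of_orders N D C DJ ΘJ hDJw hDJq hΘJ r s hs H hH hmul hord
  refine ⟨f, hf, hq, fun k hk => ?_⟩
  have hs' : (s : FF N) ≠ 0 := fun h => hs (Subtype.ext h)
  have hfper : Function.Periodic (H ∘ ofComplex) 1 := by
    have := SlashInvariantFormClass.periodic_comp_ofComplex f
      (CongruenceSubgroup.one_mem_strictPeriods_Gamma0 N)
    rwa [hf] at this
  have hfbdd : IsBoundedAtImInfty H := by
    have h0 : IsZeroAtImInfty (⇑f) := by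
      have hc : IsCusp OnePoint.infty
          (Subgroup.map (Matrix.SpecialLinearGroup.mapGL ℝ) (CongruenceSubgroup.Gamma0 N)) :=
        Subgroup.isCusp_of_mem_strictPeriods one_pos
          (CongruenceSubgroup.one_mem_strictPeriods_Gamma0 N)
      have := CuspFormClass.zero_at_cusps f hc
      rwa [OnePoint.isZeroAt_infty_iff] at this
    rw [hf] at h0
    exact h0.boundedAtFilter
  have hT₁ : toC ((s : FF N) : LaurentSeries Kbar) ≠ 0 := by
    intro h0
    apply hs'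
    have : ((s : FF N) : LaurentSeries Kbar) = 0 := toC_injective (by rw [h0, map_zero])
    exact Subtype.ext this
  have hz := coeff_div_eq_zero_of_neg hfper hH hfbdd (hasQExp_Θ N D s)
    ((hasQExp_Θ N D r).mul hDJq) hT₁ hmul k hk
  have hcoe : (((r : FF N) / (s : FF N) : FF N) : LaurentSeries Kbar)
      = ((r : FF N) : LaurentSeries Kbar) / ((s : FF N) : LaurentSeries Kbar) := rfl
  have e : toC ((((r : FF N) / (s : FF N) : FF N) : LaurentSeries Kbar) * ΘJ)
      = toC ((r : FF N) : LaurentSeries Kbar) * toC ΘJ / toC ((s : FF N) : LaurentSeries Kbar) := by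
    rw [hcoe, map_mul, map_div₀]
    ring
  apply iotaK_injective
  rw [map_zero, ← toC_coeff, e]
  exact hz

/-- Order form of the cusp condition, with the vanishing of the negative coefficients. -/
theorem exists_cuspForm_of_orders_full' (DJ : ℍ → ℂ) (ΘJ : LaurentSeries Kbar)
    (hDJw : ∀ (γ : SL(2, ℤ)) (z : ℍ), DJ (γ • z) = denom γ z ^ 2 * DJ z)
    (hDJq : HasQExp (toC ΘJ) DJ) (hΘJ : ∀ n : ℤ, n < -1 → ΘJ.coeff n = 0)
    (r s : Rsub N) (hs : s ≠ 0) (H : ℍ → ℂ) (hH : H ∈ HolH)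
    (hmul : ∀ z, H z * D.Θ s z = D.Θ r z * DJ z)
    (hord : ∀ γ : SL(2, ℤ), (r : FF N) = 0 ∨
      (N : ℤ) < (C.T γ ((r : FF N) / (s : FF N))).order) :
    ∃ f : CuspForm (CongruenceSubgroup.Gamma0 N) 2, (⇑f = H) ∧
      (∀ n : ℕ, ModularFormClass.qCoeff f n
        = iotaK (((((r : FF N) / (s : FF N) : FF N) : LaurentSeries Kbar) * ΘJ).coeff n)) ∧
      ∀ k : ℤ, k < 0 →
        ((((r : FF N) / (s : FF N) : FF N) : LaurentSeries Kbar) * ΘJ).coeff k = 0 := by
  refine exists_cuspForm_of_orders_full N D C DJ ΘJ hDJw hDJq hΘJ r s hs H hH hmul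
    fun γ n hn => ?_
  rcases hord γ with h | h
  · rw [h, zero_div, map_zero, HahnSeries.coeff_zero]
  · exact HahnSeries.coeff_eq_zero_of_lt_order (lt_of_le_of_lt hn h)

/-- Order form of the cusp condition. -/
theorem exists_cuspForm_of_orders' (DJ : ℍ → ℂ) (ΘJ : LaurentSeries Kbar)
    (hDJw : ∀ (γ : SL(2, ℤ)) (z : ℍ), DJ (γ • z) = denom γ z ^ 2 * DJ z)
    (hDJq : HasQExp (toC ΘJ) DJ) (hΘJ : ∀ n : ℤ, n < -1 → ΘJ.coeff n = 0)
    (r s : Rsub N) (hs : s ≠ 0) (H : ℍ → ℂ) (hH : H ∈ HolH)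
    (hmul : ∀ z, H z * D.Θ s z = D.Θ r z * DJ z)
    (hord : ∀ γ : SL(2, ℤ), (r : FF N) = 0 ∨
      (N : ℤ) < (C.T γ ((r : FF N) / (s : FF N))).order) :
    ∃ f : CuspForm (CongruenceSubgroup.Gamma0 N) 2, (⇑f = H) ∧
      ∀ n : ℕ, ModularFormClass.qCoeff f n
        = iotaK (((((r : FF N) / (s : FF N) : FF N) : LaurentSeries Kbar) * ΘJ).coeff n) := by
  refine exists_cuspForm_of_orders N D C DJ ΘJ hDJw hDJq hΘJ r s hs H hH hmul fun γ n hn => ?_
  rcases hord γ with h | h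
  · rw [h, zero_div, map_zero, HahnSeries.coeff_zero]
  · exact HahnSeries.coeff_eq_zero_of_lt_order (lt_of_le_of_lt hn h)

end Assembly

end Fermat.Agent.S20.CuspZero
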