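import Fermat.Agent.X0.JqExpansion
import Fermat.Agent.X0.JOrderFinal
import Fermat.Agent.X0.HolOrder

/-!
# LOW, part 2: the weight two form `D j = -E₄² E₆ / Δ` (helper23)

* `DJ`: the function `D j` on `ℍ`; holomorphic, weight `2` for `SL(2, ℤ)`.
* `ordH_DJ`: `ord_z (D j) = ellOrder z - 1`.
* `isQExp_DJ`: the `q`-expansion of `D j` is `q d/dq` of that of `j`, with coefficients in `ℚbar`.
-/

set_option autoImplicit false

open UpperHalfPlane hiding I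
open Complex Filter Function Topology
open scoped Manifold MatrixGroups ModularForm Nat

namespace Fermat.Agent.S20.LowDJ

open Fermat.Agent.X0 Fermat.Agent.X0.JQExp Fermat.Agent.X0.JOrder Fermat.Agent.X0.JOrderMain
  EisensteinSeries ModularForm Derivative

noncomputable section

local notation "Δ" => ModularForm.discriminant
local notation "𝕢" => Periodic.qParam

/-- The function `D j = (2πi)⁻¹ j' = -E₄² E₆ / Δ`. -/
def DJ (z : ℍ) : ℂ := -E₄ z ^ 2 * E₆ z / Δ z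

theorem DJ_eq_D_jFun (z : ℍ) : DJ z = D jFun z := (D_jFun z).symm

theorem DJ_mem_HolH : DJ ∈ HolH := by
  rw [mem_HolH]
  have h4 : MDiff (fun z : ℍ => -E₄ z ^ 2 * E₆ z) := by
    have h1 : MDiff (fun z : ℍ => E₄ z ^ 2) := (E₄.holo').pow 2
    exact (h1.neg).mul E₆.holo'
  exact h4.div CuspForm.discriminant.holo' discriminant_ne_zero

/-- `D j` has weight `2` for `SL(2, ℤ)`. -/
theorem DJ_smul (γ : SL(2, ℤ)) (z : ℍ) : DJ (γ • z) = denom γ z ^ 2 * DJ z := by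
  have hd : denom γ z ≠ 0 := denom_ne_zero γ z
  have hΔ : Δ z ≠ 0 := discriminant_ne_zero z
  unfold DJ
  rw [E₄_smul, E₆_smul, discriminant_smul]
  have h4 : denom γ z ^ (4 : ℤ) = denom γ z ^ 4 := by norm_cast
  have h6 : denom γ z ^ (6 : ℤ) = denom γ z ^ 6 := by norm_cast
  have h12 : denom γ z ^ (12 : ℤ) = denom γ z ^ 12 := by norm_cast
  rw [h4, h6, h12]
  field_simp

theorem compSL_DJ (γ : SL(2, ℤ)) : compSL DJ γ = fun z : ℍ => denom γ z ^ 2 * DJ z := by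
  funext z
  exact DJ_smul γ z

theorem E₄_mem_HolH : (E₄ : ℍ → ℂ) ∈ HolH := E₄.holo'

theorem E₆_mem_HolH : (E₆ : ℍ → ℂ) ∈ HolH := E₆.holo'

theorem discriminant_mem_HolH : (Δ : ℍ → ℂ) ∈ HolH := CuspForm.discriminant.holo'

theorem ordH_E₄ (z : ℍ) : ordH E₄ z = if E₄ z = 0 then 1 else 0 := by
  split_ifs with h
  · exact (X0.analyticAt_comp_ofComplex E₄_mem_HolH z).analyticOrderAt_eq_one_of_zero_deriv_ne_zero
      (by simpa using h) (deriv_E₄_ne_zero h)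
  · exact (ordH_eq_zero_iff E₄_mem_HolH z).mpr h

theorem ordH_E₆ (z : ℍ) : ordH E₆ z = if E₆ z = 0 then 1 else 0 := by
  split_ifs with h
  · exact (X0.analyticAt_comp_ofComplex E₆_mem_HolH z).analyticOrderAt_eq_one_of_zero_deriv_ne_zero
      (by simpa using h) (deriv_E₆_ne_zero h)
  · exact (ordH_eq_zero_iff E₆_mem_HolH z).mpr h

theorem ordH_discriminant (z : ℍ) : ordH Δ z = 0 :=
  (ordH_eq_zero_iff discriminant_mem_HolH z).mpr (discriminant_ne_zero z)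

/-- `ord_z (D j) + 1 = ellOrder z`. -/
theorem ordH_DJ_add_one (z : ℍ) : ordH DJ z + 1 = ellOrder z := by
  have hmul : DJ * Δ = (-1 : ℍ → ℂ) * ((E₄ : ℍ → ℂ) * E₄) * E₆ := by
    funext w
    have hΔ : Δ w ≠ 0 := discriminant_ne_zero w
    simp only [Pi.mul_apply, DJ, Pi.neg_apply, Pi.one_apply]
    field_simp
  have h1 : ordH (DJ * Δ) z = ordH DJ z := by
    rw [ordH_mul DJ_mem_HolH discriminant_mem_HolH, ordH_discriminant, add_zero]
  have hm1 : (-1 : ℍ → ℂ) ∈ HolH := HolH.neg_mem HolH.one_mem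
  have h44 : (E₄ : ℍ → ℂ) * E₄ ∈ HolH := HolH.mul_mem E₄_mem_HolH E₄_mem_HolH
  have h2 : ordH ((-1 : ℍ → ℂ) * ((E₄ : ℍ → ℂ) * E₄) * E₆) z =
      ordH E₄ z + ordH E₄ z + ordH E₆ z := by
    rw [ordH_mul (HolH.mul_mem hm1 h44) E₆_mem_HolH, ordH_mul hm1 h44,
      ordH_mul E₄_mem_HolH E₄_mem_HolH]
    have : ordH (-1 : ℍ → ℂ) z = 0 := (ordH_eq_zero_iff hm1 z).mpr (by simp)
    rw [this, zero_add]
  rw [← h1, hmul, h2, JOrderFinal.ellOrder_eq_ordE, ordH_E₄, ordH_E₆]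
  unfold ordE
  by_cases h4 : E₄ z = 0
  · have h6 := E₆_ne_zero_of_E₄_eq_zero h4
    simp only [if_pos h4, if_neg h6]
    norm_num
  · by_cases h6 : E₆ z = 0
    · simp only [if_neg h4, if_pos h6]
      norm_num
    · simp only [if_neg h4, if_neg h6]
      norm_num

theorem ordH_DJ (z : ℍ) : ordH DJ z = ((ellOrder z - 1 : ℕ) : ℕ∞) := by
  have h := ordH_DJ_add_one z
  have hpos := ellOrder_pos z
  obtain ⟨k, hk⟩ : ∃ k, ellOrder z = k + 1 := ⟨ellOrder z - 1, by omega⟩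
  rw [hk] at h ⊢
  have h' : ordH DJ z + 1 = (k : ℕ∞) + 1 := by rw [h]; push_cast; rfl
  have := ENat.add_left_injective_of_ne_top ENat.one_ne_top h'
  simpa using this

theorem DJ_ne_zero : DJ ≠ 0 := by
  intro h
  have h1 := ordH_DJ ptI
  rw [h] at h1
  have : ordH (0 : ℍ → ℂ) ptI = ⊤ := by
    unfold ordH
    rw [analyticOrderAt_eq_top]
    exact Eventually.of_forall fun w => rfl
  rw [this] at h1
  exact ENat.top_ne_natCast _ h1

theorem hasDerivAt_qParam_one (w : ℂ) :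
    HasDerivAt (𝕢 1) (2 * Real.pi * I * 𝕢 1 w) w := by
  have h1 : HasDerivAt (fun z : ℂ => 2 * Real.pi * I * z / ((1 : ℝ) : ℂ)) (2 * Real.pi * I) w := by
    simpa using ((hasDerivAt_id w).const_mul (2 * Real.pi * I)).div_const ((1 : ℝ) : ℂ)
  have h2 := h1.cexp
  have h3 : (fun z : ℂ => cexp (2 * Real.pi * I * z / ((1 : ℝ) : ℂ))) = 𝕢 1 := by
    funext z; simp [Periodic.qParam]
  rw [h3] at h2
  have h4 : cexp (2 * Real.pi * I * w / ((1 : ℝ) : ℂ)) * (2 * Real.pi * I) =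
      2 * Real.pi * I * 𝕢 1 w := by
    rw [mul_comm]; rfl
  rw [h4] at h2
  exact h2

/-- Taylor series of a derivative. -/
theorem tps_deriv (f : ℂ → ℂ) :
    tps (deriv f) = PowerSeries.mk fun n => ((n : ℂ) + 1) * PowerSeries.coeff (n + 1) (tps f) := by
  ext n
  rw [tps_coeff, PowerSeries.coeff_mk, tps_coeff, ← iteratedDeriv_succ']
  have h1 : (((n + 1)! : ℕ) : ℂ) = ((n : ℂ) + 1) * ((n ! : ℕ) : ℂ) := by
    rw [Nat.factorial_succ]; push_cast; ring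
  have h2 : ((n ! : ℕ) : ℂ) ≠ 0 := by exact_mod_cast Nat.factorial_ne_zero n
  have h3 : ((n : ℂ) + 1) ≠ 0 := by exact_mod_cast Nat.succ_ne_zero n
  rw [h1]
  field_simp

/-- `q ↦ q G'(q) - G(q)` for `G = jDisc`. -/
def thetaDisc (q : ℂ) : ℂ := q * deriv jDisc q - jDisc q

theorem differentiableOn_deriv_jDisc : DifferentiableOn ℂ (deriv jDisc) (Metric.ball 0 1) :=
  differentiableOn_jDisc.deriv Metric.isOpen_ball

theorem differentiableOn_thetaDisc : DifferentiableOn ℂ thetaDisc (Metric.ball 0 1) :=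
  (differentiableOn_id.mul differentiableOn_deriv_jDisc).sub differentiableOn_jDisc

theorem tps_thetaDisc :
    tps thetaDisc = PowerSeries.mk fun n => ((n : ℂ) - 1) * PowerSeries.coeff n (tps jDisc) := by
  have hj : AnalyticAt ℂ jDisc 0 := analyticAt_of_differentiableOn_ball differentiableOn_jDisc (by simp)
  have hdj : AnalyticAt ℂ (deriv jDisc) 0 := hj.deriv
  have hid : AnalyticAt ℂ (fun q : ℂ => q ^ 1) 0 := by fun_prop
  have h1 : thetaDisc = (fun q : ℂ => q ^ 1) * deriv jDisc - jDisc := by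
    funext q; simp [thetaDisc]
  rw [h1, tps_sub (hid.mul hdj) hj, tps_mul hid hdj, tps_monomial, tps_deriv]
  ext n
  rw [map_sub, PowerSeries.coeff_mk, pow_one]
  rcases n with _ | n
  · simp
  · rw [PowerSeries.coeff_succ_X_mul, PowerSeries.coeff_mk]
    push_cast
    ring

theorem thetaDisc_qParam (τ : ℍ) : thetaDisc (𝕢 1 τ) = 𝕢 1 τ * DJ τ := by
  have hq : ‖𝕢 1 (τ : ℂ)‖ < 1 := by simpa using norm_qParam_lt_one 1 τ
  have hq0 : 𝕢 1 (τ : ℂ) ≠ 0 := Periodic.qParam_ne_zero _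
  -- `jDisc (q w) = q w * j (w)` near `τ`
  have heq : (jDisc ∘ 𝕢 1) =ᶠ[𝓝 (τ : ℂ)] (fun w => 𝕢 1 w * (jFun ∘ ofComplex) w) := by
    filter_upwards [isOpen_upperHalfPlaneSet.mem_nhds τ.im_pos] with w hw
    have := jDisc_qParam ⟨w, hw⟩
    simp only [Function.comp_apply]
    rw [ofComplex_apply_of_im_pos hw]
    exact this
  have hG : HasDerivAt jDisc (deriv jDisc (𝕢 1 τ)) (𝕢 1 τ) :=
    (differentiableOn_jDisc.differentiableAt
      (Metric.isOpen_ball.mem_nhds (by simpa using hq))).hasDerivAt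
  have h1 : HasDerivAt (jDisc ∘ 𝕢 1) (deriv jDisc (𝕢 1 τ) * (2 * Real.pi * I * 𝕢 1 (τ : ℂ)))
      (τ : ℂ) := hG.comp (τ : ℂ) (hasDerivAt_qParam_one τ)
  have h2 : HasDerivAt (fun w => 𝕢 1 w * (jFun ∘ ofComplex) w)
      (2 * Real.pi * I * 𝕢 1 (τ : ℂ) * (jFun ∘ ofComplex) τ +
        𝕢 1 (τ : ℂ) * (2 * Real.pi * I * (-E₄ τ ^ 2 * E₆ τ / Δ τ))) (τ : ℂ) :=
    (hasDerivAt_qParam_one τ).mul (hasDerivAt_jFun τ)
  have h3 := (h1.congr_of_eventuallyEq heq.symm).unique h2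
  have h4 : (jFun ∘ ofComplex) (τ : ℂ) = jFun τ := by simp
  have h5 : jDisc (𝕢 1 τ) = 𝕢 1 τ * jFun τ := jDisc_qParam τ
  have h2pi : (2 * Real.pi * I : ℂ) ≠ 0 := two_pi_I_ne_zero'
  rw [h4] at h3
  unfold thetaDisc DJ
  rw [h5]
  have h6 : deriv jDisc (𝕢 1 τ) * 𝕢 1 (τ : ℂ) =
      𝕢 1 (τ : ℂ) * jFun τ + 𝕢 1 (τ : ℂ) * (-E₄ τ ^ 2 * E₆ τ / Δ τ) := by
    have : (2 * Real.pi * I : ℂ) * (deriv jDisc (𝕢 1 τ) * 𝕢 1 (τ : ℂ)) =
        (2 * Real.pi * I : ℂ) * (𝕢 1 (τ : ℂ) * jFun τ + 𝕢 1 (τ : ℂ) * (-E₄ τ ^ 2 * E₆ τ / Δ τ)) := by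
      linear_combination h3
    exact mul_left_cancel₀ h2pi this
  linear_combination h6

/-- The numerator of `θ j = q d/dq (j)`: `q * θ j = ∑ (n - 1) c_n q^n`. -/
def thetaNumK : PowerSeries Kbar :=
  PowerSeries.mk fun n => ((n : Kbar) - 1) * PowerSeries.coeff n jNumK

theorem map_iotaK_thetaNumK : thetaNumK.map iotaK = tps thetaDisc := by
  rw [tps_thetaDisc, tps_jDisc]
  ext n
  have h := congrArg (PowerSeries.coeff n) map_iotaK_jNumK
  rw [PowerSeries.coeff_map] at h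
  simp only [thetaNumK, PowerSeries.coeff_map, PowerSeries.coeff_mk, map_mul, map_sub, map_natCast,
    map_one]
  rw [h]
  simp [ModularCurve.jNumQ, PowerSeries.coeff_map]

theorem isQExp_DJ : IsQExp 1 DJ 1 (thetaNumK.map iotaK) := by
  intro z
  have hq : qh 1 z = 𝕢 1 (z : ℂ) := by simp [qh]
  have hq1 : ‖𝕢 1 (z : ℂ)‖ < 1 := by simpa using norm_qParam_lt_one 1 z
  rw [hq, pow_one, mul_comm, ← thetaDisc_qParam, map_iotaK_thetaNumK]
  exact hasSum_tps differentiableOn_thetaDisc hq1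

theorem coeff_zero_thetaNumK : PowerSeries.coeff 0 thetaNumK = -1 := by
  have h : PowerSeries.coeff 0 jNumK = 1 := by
    simp [jNumK, PowerSeries.coeff_map, ModularCurve.constantCoeff_jNumQ]
  simp [thetaNumK, h]

theorem thetaNumK_ne_zero : thetaNumK ≠ 0 := by
  intro h
  have := coeff_zero_thetaNumK
  rw [h] at this
  simp at this

/-- The formal `θ j = q d/dq j ∈ ℚbar((q))`. -/
def thetaJ : LaurentSeries Kbar := laurentOf 1 thetaNumK

theorem thetaJ_ne_zero : thetaJ ≠ 0 := fun h =>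
  thetaNumK_ne_zero ((laurentOf_eq_zero_iff 1 thetaNumK).mp h)

end

end Fermat.Agent.S20.LowDJ
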