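/-
Program C / S20 (LOW, cusp half; helper24): `CuspZero.exists_cuspForm_of_orders'` instantiated with
helper23's `LowDJ.DJ` (`= D jFun = -E₄² E₆ / Δ`) and `LowDJ.thetaJ` (`= q d/dq j ∈ ℚbar((q))`).
-/
import Fermat.Agent.S20.CuspZero
import Fermat.Agent.S20.LowDJ

set_option autoImplicit false

open ModularCurve UpperHalfPlane ModularForm
open scoped Topology Manifold MatrixGroups

noncomputable section

namespace Fermat.Agent.S20.CuspZeroDJ

open Fermat.Agent.X0 Fermat.Agent.X0.Analytic Fermat.Agent.S20.CuspZero Fermat.Agent.S20.LowDJ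

/-- `thetaJ` is the `q`-expansion of `DJ`. -/
theorem hasQExp_DJ : HasQExp (toC thetaJ) DJ := by
  rw [thetaJ, toC, lor_coeffMap_laurentOf]
  exact intg_hasQExp_of_isQExp isQExp_DJ

theorem coeff_thetaJ_of_lt (n : ℤ) (hn : n < -1) : thetaJ.coeff n = 0 := by
  rw [thetaJ, lor_laurentOf_coeff, if_neg]
  push_cast
  omega

variable (N : ℕ) [NeZero N] (D : RealizeData N) (C : CuspData N D)

/-- **LOW, cusp half, for `DJ` and `thetaJ`.** A holomorphic `H` with `H * Θ s = Θ r * DJ` such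
that all cusp expansions `T_γ (r/s)` have order `> N` is a cusp form of weight two on `Γ₀(N)` with
`q`-coefficients `ι (coeff ((r/s) * thetaJ))`. -/
theorem exists_cuspForm (r s : Rsub N) (hs : s ≠ 0) (H : ℍ → ℂ) (hH : H ∈ HolH)
    (hmul : ∀ z, H z * D.Θ s z = D.Θ r z * DJ z)
    (hord : ∀ γ : SL(2, ℤ), (r : FF N) = 0 ∨
      (N : ℤ) < (C.T γ ((r : FF N) / (s : FF N))).order) :
    ∃ f : CuspForm (CongruenceSubgroup.Gamma0 N) 2, (⇑f = H) ∧
      ∀ n : ℕ, ModularFormClass.qCoeff f n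
        = iotaK (((((r : FF N) / (s : FF N) : FF N) : LaurentSeries Kbar) * thetaJ).coeff n) :=
  exists_cuspForm_of_orders' N D C DJ thetaJ DJ_smul hasQExp_DJ coeff_thetaJ_of_lt r s hs H hH hmul
    hord

/-- `exists_cuspForm` together with the vanishing of the negative coefficients of
`(r/s) * thetaJ`. -/
theorem exists_cuspForm_full (r s : Rsub N) (hs : s ≠ 0) (H : ℍ → ℂ) (hH : H ∈ HolH)
    (hmul : ∀ z, H z * D.Θ s z = D.Θ r z * DJ z)
    (hord : ∀ γ : SL(2, ℤ), (r : FF N) = 0 ∨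
      (N : ℤ) < (C.T γ ((r : FF N) / (s : FF N))).order) :
    ∃ f : CuspForm (CongruenceSubgroup.Gamma0 N) 2, (⇑f = H) ∧
      (∀ n : ℕ, ModularFormClass.qCoeff f n
        = iotaK (((((r : FF N) / (s : FF N) : FF N) : LaurentSeries Kbar) * thetaJ).coeff n)) ∧
      ∀ k : ℤ, k < 0 →
        ((((r : FF N) / (s : FF N) : FF N) : LaurentSeries Kbar) * thetaJ).coeff k = 0 :=
  exists_cuspForm_of_orders_full' N D C DJ thetaJ DJ_smul hasQExp_DJ coeff_thetaJ_of_lt r s hs H hH
    hmul hord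

end Fermat.Agent.S20.CuspZeroDJ
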