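import Fermat.Agent.X0.HolOrder

/-!
# LOW, part 1: exact division of holomorphic functions on `ℍ` (helper23)

If `f, g` are holomorphic on the upper half plane, `g ≠ 0`, and `ord_z g ≤ ord_z f` at every
point `z`, then `f = H * g` with `H` holomorphic on `ℍ`.
-/

set_option autoImplicit false

open UpperHalfPlane hiding I
open Complex Filter Function Topology
open scoped Manifold MatrixGroups

namespace Fermat.Agent.S20.LowDivide

open Fermat.Agent.X0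

noncomputable section

/-- Local division: if `ord g ≤ ord f` at `z₀` and `g` is not locally zero, then `f = Q * g` near
`z₀` with `Q` analytic at `z₀`, and `g` does not vanish on a punctured neighbourhood. -/
theorem exists_local_quot {fc gc : ℂ → ℂ} {z₀ : ℂ} (hf : AnalyticAt ℂ fc z₀)
    (hg : AnalyticAt ℂ gc z₀) (hg0 : analyticOrderAt gc z₀ ≠ ⊤)
    (hle : analyticOrderAt gc z₀ ≤ analyticOrderAt fc z₀) :
    ∃ Q : ℂ → ℂ, AnalyticAt ℂ Q z₀ ∧ (∀ᶠ w in 𝓝 z₀, Q w * gc w = fc w) ∧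
      (∀ᶠ w in 𝓝[≠] z₀, gc w ≠ 0) := by
  obtain ⟨G, hG, hG0, hGeq⟩ := hg.analyticOrderAt_ne_top.mp hg0
  set n := analyticOrderNatAt gc z₀ with hn
  have hn' : (n : ℕ∞) = analyticOrderAt gc z₀ := Nat.cast_analyticOrderNatAt hg0
  have hle' : (n : ℕ∞) ≤ analyticOrderAt fc z₀ := hn' ▸ hle
  obtain ⟨F, hF, hFeq⟩ := (natCast_le_analyticOrderAt hf).mp hle'
  have hGne : ∀ᶠ w in 𝓝 z₀, G w ≠ 0 := hG.continuousAt.eventually_ne hG0
  refine ⟨fun w => F w / G w, hF.fun_div hG hG0, ?_, ?_⟩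
  · filter_upwards [hGeq, hFeq, hGne] with w h1 h2 h3
    rw [h1, h2]
    simp only [smul_eq_mul]
    field_simp
  · have h1 : ∀ᶠ w in 𝓝[≠] z₀, gc w = (w - z₀) ^ n • G w := hGeq.filter_mono nhdsWithin_le_nhds
    have h2 : ∀ᶠ w in 𝓝[≠] z₀, G w ≠ 0 := hGne.filter_mono nhdsWithin_le_nhds
    filter_upwards [h1, h2, self_mem_nhdsWithin] with w h1 h2 h3
    rw [h1]
    simp only [smul_eq_mul]
    exact mul_ne_zero (pow_ne_zero _ (sub_ne_zero.mpr h3)) h2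

/-- The candidate quotient on `ℂ`: the limit of `f / g` along punctured neighbourhoods. -/
def quotC (fc gc : ℂ → ℂ) (w : ℂ) : ℂ := limUnder (𝓝[≠] w) (fun u => fc u / gc u)

theorem quotC_eventuallyEq {fc gc Q : ℂ → ℂ} {z₀ : ℂ} (hQ : AnalyticAt ℂ Q z₀)
    (h1 : ∀ᶠ w in 𝓝 z₀, Q w * gc w = fc w) (h2 : ∀ᶠ w in 𝓝[≠] z₀, gc w ≠ 0) :
    quotC fc gc =ᶠ[𝓝 z₀] Q := by
  -- `Q` is analytic, hence continuous, near `z₀`
  have hQc : ∀ᶠ w in 𝓝 z₀, ContinuousAt Q w :=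
    hQ.eventually_analyticAt.mono fun w hw => hw.continuousAt
  -- on a punctured neighbourhood, `fc / gc = Q`
  have h3 : ∀ᶠ w in 𝓝[≠] z₀, fc w / gc w = Q w := by
    filter_upwards [h1.filter_mono nhdsWithin_le_nhds, h2] with w hw1 hw2
    rw [← hw1, mul_div_assoc, div_self hw2, mul_one]
  -- turn this into a statement on a genuine neighbourhood
  have h3' : ∀ᶠ w in 𝓝 z₀, w ≠ z₀ → fc w / gc w = Q w :=
    eventually_nhdsWithin_iff.mp h3
  have h4 : ∀ᶠ w in 𝓝 z₀, ∀ᶠ u in 𝓝 w, u ≠ z₀ → fc u / gc u = Q u :=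
    eventually_eventually_nhds.mpr h3'
  filter_upwards [h4, hQc] with w hw hc
  -- near `w`, punctured at `w`, `fc / gc = Q`
  have h5 : ∀ᶠ u in 𝓝[≠] w, fc u / gc u = Q u := by
    by_cases hwz : w = z₀
    · subst hwz
      exact h3
    · have h6 : ∀ᶠ u in 𝓝 w, u ≠ z₀ := (continuousAt_id.eventually_ne hwz)
      exact (hw.and h6).filter_mono nhdsWithin_le_nhds |>.mono fun u hu => hu.1 hu.2
  have h7 : Tendsto (fun u => fc u / gc u) (𝓝[≠] w) (𝓝 (Q w)) := by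
    have : Tendsto Q (𝓝[≠] w) (𝓝 (Q w)) := hc.tendsto.mono_left nhdsWithin_le_nhds
    exact this.congr' (h5.mono fun u hu => hu.symm)
  exact h7.limUnder_eq

/-- Exact division in `Hol(ℍ)`. -/
theorem exists_div_HolH {f g : ℍ → ℂ} (hf : f ∈ HolH) (hg : g ∈ HolH) (hg0 : g ≠ 0)
    (h : ∀ z, ordH g z ≤ ordH f z) : ∃ H : ℍ → ℂ, H ∈ HolH ∧ H * g = f := by
  set Hc := quotC (f ∘ ofComplex) (g ∘ ofComplex) with hHc
  have key : ∀ z : ℍ, ∃ Q : ℂ → ℂ, AnalyticAt ℂ Q (z : ℂ) ∧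
      (∀ᶠ w in 𝓝 (z : ℂ), Q w * (g ∘ ofComplex) w = (f ∘ ofComplex) w) ∧ Hc =ᶠ[𝓝 (z : ℂ)] Q := by
    intro z
    obtain ⟨Q, hQ, h1, h2⟩ := exists_local_quot (analyticAt_comp_ofComplex hf z)
      (analyticAt_comp_ofComplex hg z) (ordH_ne_top hg hg0 z) (h z)
    exact ⟨Q, hQ, h1, quotC_eventuallyEq hQ h1 h2⟩
  refine ⟨fun z => Hc (z : ℂ), ?_, ?_⟩
  · rw [mem_HolH, UpperHalfPlane.mdifferentiable_iff]
    intro w hw
    obtain ⟨Q, hQ, -, h3⟩ := key ⟨w, hw⟩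
    have h4 : AnalyticAt ℂ Hc w := hQ.congr h3.symm
    have h5 : ((fun z : ℍ => Hc (z : ℂ)) ∘ ofComplex) =ᶠ[𝓝 w] Hc := by
      filter_upwards [isOpen_upperHalfPlaneSet.mem_nhds hw] with u hu
      simp only [Function.comp_apply]
      rw [ofComplex_apply_of_im_pos hu]
    exact (h4.congr h5.symm).differentiableAt.differentiableWithinAt
  · funext z
    obtain ⟨Q, -, h1, h3⟩ := key z
    have h4 := h1.self_of_nhds
    have h5 := h3.self_of_nhds
    simp only [Function.comp_apply, ofComplex_apply] at h4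
    simp only [Pi.mul_apply]
    rw [h5, h4]

end

end Fermat.Agent.S20.LowDivide
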