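import Fermat.Agent.X0.PointPlacesD
import Fermat.Agent.X0.FFGenusCore
import Fermat.Agent.S20.LowDivide
import Fermat.Agent.X0.Degree

/-!
# LOW, part 3: a regular differential `h dj` gives a holomorphic function on `ℍ` (helper23)

Let `h = r / s ∈ F` (`r, s ∈ R`, `s ≠ 0`) be such that `h dj` is regular at every place of `F`,
and let `J` be a holomorphic function with `ord_z J + 1 = ellOrder z` (e.g. `J = D j`).
Then `ord_z (Θ s) ≤ ord_z (Θ r * J)` at every `z ∈ ℍ`, hence `Θ r * J = H * Θ s` with `H`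
holomorphic on `ℍ`.
-/

set_option autoImplicit false
set_option linter.unusedSectionVars false
set_option synthInstance.maxHeartbeats 400000
set_option maxHeartbeats 1000000

open UpperHalfPlane hiding I
open Complex Filter Function Topology
open scoped Manifold MatrixGroups

namespace Fermat.Agent.S20.LowHolo

open Fermat.Agent.X0 Fermat.Agent.X0.JOrderMain Fermat.Agent.X0.PointPlaces
  Fermat.Agent.X0.PointPlacesD AlgebraicCurve

noncomputable section

variable {N : ℕ} [NeZero N] (D : RealizeData N)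

/-- Hypothesis (from `Degree.lean`): nonzero elements of `R` do not vanish at points with
transcendental `j`-value. -/
def TransNonvanishing : Prop :=
  ∀ s : Rsub N, s ≠ 0 → ∀ z₀ : ℍ, jFun z₀ ∉ Set.range iotaK → D.Θ s z₀ ≠ 0

theorem ordH_zero_fun (z : ℍ) : ordH (0 : ℍ → ℂ) z = ⊤ := by
  unfold ordH
  rw [analyticOrderAt_eq_top]
  exact Eventually.of_forall fun w => rfl

theorem coe_ne_zero {u : Rsub N} (hu : u ≠ 0) : (u : FF N) ≠ 0 :=
  fun h => hu (Subtype.ext h)

/-- `dj = d(j - c)`. -/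
theorem D_jF_sub (c : Kbar) :
    KaehlerDifferential.D Kbar (FF N) (jF N - algebraMap Kbar (FF N) c) =
      KaehlerDifferential.D Kbar (FF N) (jF N) := by
  rw [map_sub, Derivation.map_algebraMap, sub_zero]

/-- The order inequality at a point with algebraic `j`-value. -/
theorem ordH_le_of_regular_alg (H : FF.GenusHyp Kbar (jF N)) {J : ℍ → ℂ} (hJ : J ∈ HolH)
    (hJord : ∀ z, ordH J z + 1 = ellOrder z) (r s : Rsub N) (hs : s ≠ 0)
    (hreg : ∀ v : Place Kbar (FF N),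
      0 ≤ v.ordDifferential (((r : FF N) / (s : FF N)) • KaehlerDifferential.D Kbar (FF N) (jF N)))
    (z₀ : ℍ) (c : Kbar) (hc : jFun z₀ = iotaK c) :
    ordH (D.Θ s) z₀ ≤ ordH (D.Θ r * J) z₀ := by
  rcases eq_or_ne r 0 with rfl | hr
  · rw [map_zero, zero_mul, ordH_zero_fun]
    exact le_top
  set v := pointPlaceD D z₀ c hc 1 with hv
  set m := pointMultD D z₀ c hc 1 with hm
  have hmpos : 0 < m := pointMultD_pos D z₀ c hc 1
  have hspec : ∀ u : Rsub N, u ≠ 0 → ((ordH (D.Θ u) z₀).toNat : ℤ) = m * v.ord (u : FF N) := by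
    intro u hu
    have := pointPlaceD_spec D z₀ c hc 1 u hu
    rwa [inv_one, compSL_one] at this
  have hne : ∀ u : Rsub N, u ≠ 0 → ordH (D.Θ u) z₀ ≠ ⊤ := by
    intro u hu
    have := ordH_ne_top_D D z₀ 1 u hu
    rwa [inv_one, compSL_one] at this
  have he := pointMultD_mul_ord D z₀ c hc 1
  have hepos := pointPlaceD_ord_pos D z₀ c hc 1
  set ev := v.ord (jF N - algebraMap Kbar (FF N) c) with hev
  -- regularity at `v`
  have hrF := coe_ne_zero hr
  have hsF := coe_ne_zero hs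
  have hh : (r : FF N) / (s : FF N) ≠ 0 := div_ne_zero hrF hsF
  have h1 := hreg v
  rw [H.ordDifferential_smul' v _ hh _ H.D_ne_zero, ← D_jF_sub c,
    H.ordDifferential_D_of_ord_ne_zero v _ hepos.ne', ← hev] at h1
  have h2 : v.ord ((r : FF N) / (s : FF N)) = v.ord (r : FF N) - v.ord (s : FF N) := by
    rw [div_eq_mul_inv, v.ord_mul hrF (inv_ne_zero hsF), v.ord_inv]
    ring
  rw [h2] at h1
  -- translate to orders on `ℍ`
  have ha := hspec r hr
  have hb := hspec s hs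
  have hmZ : (1 : ℤ) ≤ m := by exact_mod_cast hmpos
  have key : ((ordH (D.Θ s) z₀).toNat : ℤ) + 1 ≤ (ordH (D.Θ r) z₀).toNat + ellOrder z₀ := by
    rw [ha, hb, ← he]
    nlinarith
  -- conclude in `ℕ∞`
  rw [ordH_mul (D.mem_HolH r) hJ]
  have hJ' := hJord z₀
  have hJne : ordH J z₀ ≠ ⊤ := by
    intro h
    rw [h] at hJ'
    simp at hJ'
  obtain ⟨a, ha'⟩ : ∃ a : ℕ, ordH (D.Θ r) z₀ = a := ⟨_, (ENat.natCast_toNat (hne r hr)).symm⟩
  obtain ⟨b, hb'⟩ : ∃ b : ℕ, ordH (D.Θ s) z₀ = b := ⟨_, (ENat.natCast_toNat (hne s hs)).symm⟩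
  obtain ⟨k, hk'⟩ : ∃ k : ℕ, ordH J z₀ = k := ⟨_, (ENat.natCast_toNat hJne).symm⟩
  rw [ha', hb'] at key
  rw [hk'] at hJ'
  rw [ha', hb', hk']
  simp only [ENat.toNat_natCast] at key
  have hJ'' : k + 1 = ellOrder z₀ := by exact_mod_cast hJ'
  have key' : b + 1 ≤ a + ellOrder z₀ := by exact_mod_cast key
  have : b ≤ a + k := by omega
  exact_mod_cast this

/-- The order inequality at every point. -/
theorem ordH_le_of_regular (H : FF.GenusHyp Kbar (jF N)) (htr : TransNonvanishing D)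
    {J : ℍ → ℂ} (hJ : J ∈ HolH)
    (hJord : ∀ z, ordH J z + 1 = ellOrder z) (r s : Rsub N) (hs : s ≠ 0)
    (hreg : ∀ v : Place Kbar (FF N),
      0 ≤ v.ordDifferential (((r : FF N) / (s : FF N)) • KaehlerDifferential.D Kbar (FF N) (jF N)))
    (z₀ : ℍ) : ordH (D.Θ s) z₀ ≤ ordH (D.Θ r * J) z₀ := by
  by_cases hz : jFun z₀ ∈ Set.range iotaK
  · obtain ⟨c, hc⟩ := hz
    exact ordH_le_of_regular_alg D H hJ hJord r s hs hreg z₀ c hc.symm
  · have h0 : ordH (D.Θ s) z₀ = 0 := (ordH_eq_zero_iff (D.mem_HolH s) z₀).mpr (htr s hs z₀ hz)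
    rw [h0]
    exact zero_le

/-- MAIN: the holomorphic function `H = (Θ r / Θ s) * J` on `ℍ`. -/
theorem exists_holo_of_regular (H : FF.GenusHyp Kbar (jF N)) (htr : TransNonvanishing D)
    {J : ℍ → ℂ} (hJ : J ∈ HolH)
    (hJord : ∀ z, ordH J z + 1 = ellOrder z) (r s : Rsub N) (hs : s ≠ 0)
    (hreg : ∀ v : Place Kbar (FF N),
      0 ≤ v.ordDifferential (((r : FF N) / (s : FF N)) • KaehlerDifferential.D Kbar (FF N) (jF N))) :
    ∃ Hf : ℍ → ℂ, Hf ∈ HolH ∧ ∀ z, Hf z * D.Θ s z = D.Θ r z * J z := by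
  have hs0 : D.Θ s ≠ 0 := fun h => hs (D.injective (by rw [h, map_zero]))
  obtain ⟨Hf, hHf, hmul⟩ := LowDivide.exists_div_HolH (HolH.mul_mem (D.mem_HolH r) hJ)
    (D.mem_HolH s) hs0 (ordH_le_of_regular D H htr hJ hJord r s hs hreg)
  exact ⟨Hf, hHf, fun z => congrFun hmul z⟩

/-- `TransNonvanishing` holds (from `Degree.lean`, helper27). -/
theorem transNonvanishing (C : CuspData N D) : TransNonvanishing D :=
  fun s hs z₀ hz => Degree.Θ_ne_zero_of_transcendental N D C s hs z₀ hz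

/-- MAIN, with `Degree.lean` plugged in. -/
theorem exists_holo_of_regular' (C : CuspData N D) (H : FF.GenusHyp Kbar (jF N))
    {J : ℍ → ℂ} (hJ : J ∈ HolH)
    (hJord : ∀ z, ordH J z + 1 = ellOrder z) (r s : Rsub N) (hs : s ≠ 0)
    (hreg : ∀ v : Place Kbar (FF N),
      0 ≤ v.ordDifferential (((r : FF N) / (s : FF N)) • KaehlerDifferential.D Kbar (FF N) (jF N))) :
    ∃ Hf : ℍ → ℂ, Hf ∈ HolH ∧ ∀ z, Hf z * D.Θ s z = D.Θ r z * J z :=
  exists_holo_of_regular D H (transNonvanishing D C) hJ hJord r s hs hreg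

end

end Fermat.Agent.S20.LowHolo
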