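/-
C-LOW (helper16): ASSEMBLY of the dictionary "regular differential ⇒ cusp form".

For `h ∈ F = FF N` such that the differential `h • dj` is regular at every place of `F / ℚbar`,
there is a cusp form `f ∈ S₂(Γ₀(N))` whose `q`-expansion coefficients are
`ι (coeff n (h * θ_j))`, `θ_j = q dj/dq ∈ ℚbar((q))`.

Inputs: `LowHolo` (helper23: holomorphy on `ℍ`), `LowCuspOrd` (orders at the cusp places),
`CuspZeroDJ` (helper24: the cusp form and its `q`-coefficients), `Degree` (helper27: `j` generates),
`FFGenus` (helper21: `GenusHyp`), `CuspGood` (helper29).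
-/
import Fermat.Agent.S20.LowHolo
import Fermat.Agent.S20.LowCuspOrd
import Fermat.Agent.S20.CuspZeroDJ
import Fermat.Agent.X0.CuspGood
import Fermat.Agent.X0.CuspExpand
import Fermat.Agent.X0.FFGenus

set_option autoImplicit false

open AlgebraicCurve UpperHalfPlane ModularForm
open scoped MatrixGroups

noncomputable section

namespace Fermat.Agent.S20.Low

open Fermat.Agent.X0 Fermat.Agent.S20.LowDJ

/-- The dictionary, for arbitrary realisation and cusp data. -/
theorem exists_cuspForm_of_regular_aux {N : ℕ} [NeZero N] (RD : RealizeData N)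
    (C : CuspData N RD) (H : FF.GenusHyp Kbar (jF N)) (h : FF N)
    (hreg : ∀ v : Place Kbar (FF N),
      0 ≤ v.ordDifferential (h • KaehlerDifferential.D Kbar (FF N) (jF N))) :
    ∃ f : CuspForm (CongruenceSubgroup.Gamma0 N) 2, ∀ n : ℕ,
      ModularFormClass.qCoeff f n = iotaK (((h : LaurentSeries Kbar) * thetaJ).coeff n) := by
  obtain ⟨r, s, hs, rfl⟩ := FracR.exists_div_ne_zero N h
  obtain ⟨Hf, hHf, hmul⟩ := LowHolo.exists_holo_of_regular' RD C H DJ_mem_HolH ordH_DJ_add_one
    r s hs hreg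
  have hord : ∀ γ : SL(2, ℤ), (r : FF N) = 0 ∨
      (N : ℤ) < (C.T γ ((r : FF N) / (s : FF N))).order := by
    intro γ
    by_cases hr : (r : FF N) = 0
    · exact Or.inl hr
    · right
      have hs' : (s : FF N) ≠ 0 := fun h0 => hs (Subtype.ext h0)
      have hne : (r : FF N) / (s : FF N) ≠ 0 := div_ne_zero hr hs'
      have := LowCuspOrd.order_T_ge_of_regular (CuspGood.good C) H hne hreg γ
      omega
  obtain ⟨f, -, hf⟩ := CuspZeroDJ.exists_cuspForm N RD C r s hs Hf hHf hmul hord
  exact ⟨f, hf⟩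

/-- `GenusHyp` for `F / ℚbar` and the generator `j`. -/
theorem genusHyp_jF (N : ℕ) [NeZero N] : FF.GenusHyp Kbar (jF N) :=
  FFGenus.genusHyp (Degree.isGen_jF N (realizeData N) (cuspData N))

/-- **LOW**: a regular differential `h • dj` of `F = ℚbar(X₀(N))` gives a cusp form of weight two
on `Γ₀(N)` with `q`-expansion `ι (h * θ_j)`. -/
theorem exists_cuspForm_of_regular (N : ℕ) [NeZero N] (h : FF N)
    (hreg : ∀ v : Place Kbar (FF N),
      0 ≤ v.ordDifferential (h • KaehlerDifferential.D Kbar (FF N) (jF N))) :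
    ∃ f : CuspForm (CongruenceSubgroup.Gamma0 N) 2, ∀ n : ℕ,
      ModularFormClass.qCoeff f n = iotaK (((h : LaurentSeries Kbar) * thetaJ).coeff n) :=
  exists_cuspForm_of_regular_aux (realizeData N) (cuspData N) (genusHyp_jF N) h hreg

/-- The dictionary with the vanishing of the negative coefficients, for arbitrary realisation
and cusp data. -/
theorem exists_cuspForm_of_regular_full_aux {N : ℕ} [NeZero N] (RD : RealizeData N)
    (C : CuspData N RD) (H : FF.GenusHyp Kbar (jF N)) (h : FF N)
    (hreg : ∀ v : Place Kbar (FF N),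
      0 ≤ v.ordDifferential (h • KaehlerDifferential.D Kbar (FF N) (jF N))) :
    ∃ f : CuspForm (CongruenceSubgroup.Gamma0 N) 2,
      (∀ n : ℕ, ModularFormClass.qCoeff f n
        = iotaK (((h : LaurentSeries Kbar) * thetaJ).coeff n)) ∧
      ∀ k : ℤ, k < 0 → ((h : LaurentSeries Kbar) * thetaJ).coeff k = 0 := by
  obtain ⟨r, s, hs, rfl⟩ := FracR.exists_div_ne_zero N h
  obtain ⟨Hf, hHf, hmul⟩ := LowHolo.exists_holo_of_regular' RD C H DJ_mem_HolH ordH_DJ_add_one
    r s hs hreg
  have hord : ∀ γ : SL(2, ℤ), (r : FF N) = 0 ∨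
      (N : ℤ) < (C.T γ ((r : FF N) / (s : FF N))).order := by
    intro γ
    by_cases hr : (r : FF N) = 0
    · exact Or.inl hr
    · right
      have hs' : (s : FF N) ≠ 0 := fun h0 => hs (Subtype.ext h0)
      have hne : (r : FF N) / (s : FF N) ≠ 0 := div_ne_zero hr hs'
      have := LowCuspOrd.order_T_ge_of_regular (CuspGood.good C) H hne hreg γ
      omega
  obtain ⟨f, -, hf, hneg⟩ := CuspZeroDJ.exists_cuspForm_full N RD C r s hs Hf hHf hmul hord
  exact ⟨f, hf, hneg⟩

/-- **LOW, full form**: a regular differential `h • dj` of `F = ℚbar(X₀(N))` gives a cusp form of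
weight two on `Γ₀(N)` with `q`-expansion `ι (h * θ_j)`; moreover `h * θ_j` has no coefficients in
negative degrees. -/
theorem exists_cuspForm_of_regular_full (N : ℕ) [NeZero N] (h : FF N)
    (hreg : ∀ v : Place Kbar (FF N),
      0 ≤ v.ordDifferential (h • KaehlerDifferential.D Kbar (FF N) (jF N))) :
    ∃ f : CuspForm (CongruenceSubgroup.Gamma0 N) 2,
      (∀ n : ℕ, ModularFormClass.qCoeff f n
        = iotaK (((h : LaurentSeries Kbar) * thetaJ).coeff n)) ∧
      ∀ k : ℤ, k < 0 → ((h : LaurentSeries Kbar) * thetaJ).coeff k = 0 :=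
  exists_cuspForm_of_regular_full_aux (realizeData N) (cuspData N) (genusHyp_jF N) h hreg

end Fermat.Agent.S20.Low
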