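import Fermat.Agent.S20.DictRank
import Fermat.Agent.S20.LowDJ
import Fermat.Agent.S20.Low
import Fermat.Agent.S49.QExp
import Fermat.Agent.RR.Final
import Fermat.Agent.RR.InstPrep
import Fermat.Agent.RR.ResidueGlob
import Fermat.Agent.X0.FFGenusCore
import Fermat.Agent.X0.HasCanDivInst
import Fermat.Agent.S21.Assembly
import Fermat.Agent.S24

/-!
# LOW, final step: `genusFormula N ≤ dim S₂(Γ₀(N))` (helper23)

From
* `LowStatement N`: every nonzero `h ∈ F` with `h dj` regular gives a cusp form with
  `q`-expansion `ι (h * θj)` (and `h * θj` has no terms of negative degree),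
* Riemann–Roch (`RRData`): the space `L(W)`, `W = div (dj)`, has dimension the genus,
* `S24`: the genus is `genusFormula N`,
we get the lower bound for `dim S₂(Γ₀(N))` via the dictionary lemma `DictRank`.
-/

set_option autoImplicit false
set_option linter.unusedSectionVars false
set_option synthInstance.maxHeartbeats 400000
set_option maxHeartbeats 1000000

open UpperHalfPlane hiding I
open scoped MatrixGroups

namespace Fermat.Agent.S20.LowerBound

open Fermat.Agent.X0 AlgebraicCurve Fermat.Agent.S20.LowDJ Module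

noncomputable section

variable (N : ℕ) [NeZero N]

/-- The statement of (LOW): regular differentials `h dj` give cusp forms of weight two with
`q`-expansion `ι (h * θj)`. -/
def LowStatement : Prop :=
  ∀ h : FF N, h ≠ 0 →
    (∀ v : Place Kbar (FF N),
      0 ≤ v.ordDifferential (h • KaehlerDifferential.D Kbar (FF N) (jF N))) →
    (∃ f : CuspForm (CongruenceSubgroup.Gamma0 N) 2, ∀ n : ℕ,
      ModularFormClass.qCoeff f n = iotaK (((h : LaurentSeries Kbar) * thetaJ).coeff n)) ∧
    ∀ k : ℤ, k < 0 → ((h : LaurentSeries Kbar) * thetaJ).coeff k = 0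

/-- The coefficient map `h ↦ (n ↦ (h * θj).coeff n)` on `F`, as a `ℚbar`-linear map. -/
def coeffL : FF N →ₗ[Kbar] (ℕ → Kbar) where
  toFun h n := ((h : LaurentSeries Kbar) * thetaJ).coeff (n : ℤ)
  map_add' h h' := by
    funext n
    show (((h + h' : FF N) : LaurentSeries Kbar) * thetaJ).coeff (n : ℤ) = _
    rw [show ((h + h' : FF N) : LaurentSeries Kbar) = (h : LaurentSeries Kbar) + h' from rfl,
      add_mul]
    rfl
  map_smul' a h := by
    funext n
    show (((a • h : FF N) : LaurentSeries Kbar) * thetaJ).coeff (n : ℤ) = _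
    have h1 : ((a • h : FF N) : LaurentSeries Kbar)
        = algebraMap Kbar (LaurentSeries Kbar) a * (h : LaurentSeries Kbar) := by
      rw [Algebra.smul_def]
      rfl
    rw [h1, mul_assoc, ModularCurve.algebraMap_laurentSeries_eq_single,
      HahnSeries.coeff_single_zero_mul]
    rfl

@[simp] theorem coeffL_apply (h : FF N) (n : ℕ) :
    coeffL N h n = ((h : LaurentSeries Kbar) * thetaJ).coeff (n : ℤ) := rfl

variable {N}

/-- Elements of `L(div ω₀)` are regular multiples of `ω₀`. -/
theorem regular_of_mem_L {ω₀ : Ω[FF N⁄Kbar]} (hω₀ : ω₀ ≠ 0)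
    (hsmul : ∀ (v : Place Kbar (FF N)) (g : FF N), g ≠ 0 → ∀ ω : Ω[FF N⁄Kbar], ω ≠ 0 →
      v.ordDifferential (g • ω) = v.ord g + v.ordDifferential ω)
    {W : Divisor Kbar (FF N)} (hW : ∀ v, W v = v.ordDifferential ω₀) {h : FF N} (hh : h ≠ 0)
    (hmem : h ∈ riemannRochSpace W) (v : Place Kbar (FF N)) :
    0 ≤ v.ordDifferential (h • ω₀) := by
  rw [hsmul v h hh ω₀ hω₀]
  rcases (mem_riemannRochSpace_iff.mp hmem) v with h0 | h1
  · exact absurd h0 hh
  · rw [hW] at h1
    linarith

/-- The dictionary inequality. -/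
theorem finrank_L_le (hLow : LowStatement N)
    (hω₀ : KaehlerDifferential.D Kbar (FF N) (jF N) ≠ 0)
    (hsmul : ∀ (v : Place Kbar (FF N)) (g : FF N), g ≠ 0 → ∀ ω : Ω[FF N⁄Kbar], ω ≠ 0 →
      v.ordDifferential (g • ω) = v.ord g + v.ordDifferential ω)
    {W : Divisor Kbar (FF N)}
    (hW : ∀ v, W v = v.ordDifferential (KaehlerDifferential.D Kbar (FF N) (jF N)))
    [FiniteDimensional Kbar (riemannRochSpace W)]
    [Module.Finite ℂ (CuspForm (CongruenceSubgroup.Gamma0 N) 2)] :
    finrank Kbar (riemannRochSpace W) ≤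
      finrank ℂ (CuspForm (CongruenceSubgroup.Gamma0 N) 2) := by
  set E := riemannRochSpace W with hE
  let c : E →ₗ[Kbar] (ℕ → Kbar) := (coeffL N).comp E.subtype
  have hc_apply : ∀ (h : E) (n : ℕ), c h n = (((h : FF N) : LaurentSeries Kbar) * thetaJ).coeff n := by
    intro h n
    rfl
  have hneg : ∀ h : E, ∀ k : ℤ, k < 0 →
      ((((h : FF N) : LaurentSeries Kbar)) * thetaJ).coeff k = 0 := by
    intro h k hk
    rcases eq_or_ne (h : FF N) 0 with h0 | h0
    · rw [h0]
      simp
    · exact (hLow (h : FF N) h0 (regular_of_mem_L hω₀ hsmul hW h0 h.2)).2 k hk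
  have hc : Function.Injective c := by
    rw [← LinearMap.ker_eq_bot, LinearMap.ker_eq_bot']
    intro h hh
    have hzero : (((h : FF N) : LaurentSeries Kbar)) * thetaJ = 0 := by
      ext k
      rcases lt_or_ge k 0 with hk | hk
      · rw [hneg h k hk]
        rfl
      · obtain ⟨n, rfl⟩ := Int.eq_ofNat_of_zero_le hk
        have := congrFun hh n
        rw [hc_apply] at this
        rw [this]
        rfl
    have h1 : ((h : FF N) : LaurentSeries Kbar) = 0 :=
      (mul_eq_zero.mp hzero).resolve_right thetaJ_ne_zero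
    have h2 : (h : FF N) = 0 := Subtype.ext h1
    exact Subtype.ext h2
  refine DictRank.finrank_le_of_dictionary iotaK c hc (S49.qCoeffLin N) ?_
  intro h
  rcases eq_or_ne (h : FF N) 0 with h0 | h0
  · refine ⟨0, fun n => ?_⟩
    rw [map_zero, hc_apply, h0]
    simp
  · obtain ⟨f, hf⟩ := (hLow (h : FF N) h0 (regular_of_mem_L hω₀ hsmul hW h0 h.2)).1
    exact ⟨f, fun n => by rw [S49.qCoeffLin_apply, hc_apply]; exact hf n⟩

/-- MAIN: the lower bound, from (LOW), Riemann–Roch and `S24`. -/
theorem genusFormula_le_finrank_of [HasCanonicalDivisor (K := Kbar) (F := FF N)]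
    (hLow : LowStatement N) (H : FF.GenusHyp Kbar (jF N)) (X : RR.Final.RRData Kbar (FF N))
    (hS24 : (genus Kbar (FF N) : ℚ) = ModularCurve.genusFormula N)
    [Module.Finite ℂ (CuspForm (CongruenceSubgroup.Gamma0 N) 2)] :
    ModularCurve.genusFormula N ≤
      (finrank ℂ (CuspForm (CongruenceSubgroup.Gamma0 N) 2) : ℚ) := by
  have hω₀ : KaehlerDifferential.D Kbar (FF N) (jF N) ≠ 0 := H.D_ne_zero
  set W := canonicalDivisorOf hω₀ with hWdef
  have hW : ∀ v, W v = v.ordDifferential (KaehlerDifferential.D Kbar (FF N) (jF N)) :=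
    fun v => canonicalDivisorOf_apply hω₀ v
  have hfin : finrank Kbar (riemannRochSpace W) = genus Kbar (FF N) :=
    RR.Final.finrank_L_canonical_eq_genus X hω₀ hW
  rw [← hS24]
  rcases Nat.eq_zero_or_pos (genus Kbar (FF N)) with h0 | hpos
  · rw [h0]
    simp
  · have : FiniteDimensional Kbar (riemannRochSpace W) :=
      Module.finite_of_finrank_pos (by rw [hfin]; exact hpos)
    have := finrank_L_le hLow hω₀ H.ordDifferential_smul' hW
    rw [hfin] at this
    exact_mod_cast this

/-! ### The hypothesis-free statement -/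

variable (N)

/-- (LOW), hypothesis-free (helper16's `Low.exists_cuspForm_of_regular_full`). -/
theorem lowStatement : LowStatement N := by
  intro h _ hreg
  obtain ⟨f, hf, hneg⟩ := Low.exists_cuspForm_of_regular_full N h hreg
  exact ⟨⟨f, hf⟩, hneg⟩

/-- **(LOW)**: `genusFormula N ≤ dim S₂(Γ₀(N))`. -/
theorem genusFormula_le_finrank :
    ModularCurve.genusFormula N ≤
      (Module.finrank ℂ (CuspForm (CongruenceSubgroup.Gamma0 N) 2) : ℚ) := by
  have hx : FF.IsGen Kbar (jF N) := HasCanDivInst.isGen N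
  have : HasCanonicalDivisor (K := Kbar) (F := FF N) := HasCanDivInst.hasCanonicalDivisor N
  have : Module.Finite ℂ (CuspForm (CongruenceSubgroup.Gamma0 N) 2) :=
    Fermat.Agent.S21.Assembly.finite_cusp N
  exact genusFormula_le_finrank_of (lowStatement N) (Low.genusHyp_jF N)
    (RR.InstPrep.rrData hx (RR.ResidueGlob.residueData hx))
    (Fermat.Agent.S24.result N)

end

end Fermat.Agent.S20.LowerBound
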