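/-
S20, piece (LOW-4) (helper25): from a coefficientwise "dictionary" to a dimension inequality.

Abstract form of the last step of the lower bound `g ≤ dim S₂(Γ₀(N))`:
a finite-dimensional `K`-space `E` (regular differentials) with an injective `K`-linear coefficient
map `c : E → (ℕ → K)`, a finite-dimensional `L`-space `S` (cusp forms) with an `L`-linear coefficient
map `q : S → (ℕ → L)`, a field homomorphism `φ : K → L`, and for every `h : E` some `f : S` with
`q f n = φ (c h n)`.  Then `finrank K E ≤ finrank L S`.
-/
import Mathlib
import Fermat.Agent.S20.IndepBaseChange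

set_option autoImplicit false

namespace Fermat.Agent.S20.DictRank

open Module Fermat.Agent.S20.IndepBaseChange

variable {K L : Type*} [Field K] [Field L]

/-- **Dictionary ⇒ dimension inequality.** -/
theorem finrank_le_of_dictionary (φ : K →+* L) {E : Type*} [AddCommGroup E] [Module K E]
    [FiniteDimensional K E] {S : Type*} [AddCommGroup S] [Module L S] [Module.Finite L S]
    {κ : Type*} (c : E →ₗ[K] (κ → K)) (hc : Function.Injective c) (q : S →ₗ[L] (κ → L))
    (hdict : ∀ h : E, ∃ f : S, ∀ n, q f n = φ (c h n)) :
    finrank K E ≤ finrank L S := by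
  classical
  let b := Module.finBasis K E
  have hv : LinearIndependent K (fun i => c (b i)) :=
    b.linearIndependent.map' c (LinearMap.ker_eq_bot.mpr hc)
  have hL : LinearIndependent L (fun i => fun n => φ (c (b i) n)) := linearIndependent_map φ hv
  choose f hf using fun i => hdict (b i)
  have hq : LinearIndependent L (q ∘ f) := by
    have e : (q ∘ f) = fun i => fun n => φ (c (b i) n) := by
      funext i n; exact hf i n
    rw [e]; exact hL
  have hfi : LinearIndependent L f := hq.of_comp q
  have := hfi.fintype_card_le_finrank
  simpa using this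

/-- Variant without finite-dimensionality of the target: the dictionary produces
`finrank K E` linearly independent elements of `S`. -/
theorem exists_linearIndependent_of_dictionary (φ : K →+* L) {E : Type*} [AddCommGroup E]
    [Module K E] [FiniteDimensional K E] {S : Type*} [AddCommGroup S] [Module L S]
    {κ : Type*} (c : E →ₗ[K] (κ → K)) (hc : Function.Injective c) (q : S →ₗ[L] (κ → L))
    (hdict : ∀ h : E, ∃ f : S, ∀ n, q f n = φ (c h n)) :
    ∃ f : Fin (finrank K E) → S, LinearIndependent L f := by
  classical
  let b := Module.finBasis K E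
  have hv : LinearIndependent K (fun i => c (b i)) :=
    b.linearIndependent.map' c (LinearMap.ker_eq_bot.mpr hc)
  have hL : LinearIndependent L (fun i => fun n => φ (c (b i) n)) := linearIndependent_map φ hv
  choose f hf using fun i => hdict (b i)
  refine ⟨f, LinearIndependent.of_comp q ?_⟩
  have e : (q ∘ f) = fun i => fun n => φ (c (b i) n) := by
    funext i n; exact hf i n
  rw [e]; exact hL

/-! ### The coefficient map `h ↦ (n ↦ coeff n (h * θ))` on Laurent series -/

/-- `h ↦ (n ↦ (h * θ).coeff n)`, `n : ℕ`, as a `K`-linear map on Laurent series. -/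
noncomputable def coeffNat (θ : LaurentSeries K) : LaurentSeries K →ₗ[K] (ℕ → K) where
  toFun h n := (h * θ).coeff (n : ℤ)
  map_add' h h' := by funext n; simp [add_mul]
  map_smul' a h := by
    funext n
    show (a • h * θ).coeff ↑n = a • (h * θ).coeff ↑n
    rw [← HahnSeries.C_mul_eq_smul, mul_assoc, HahnSeries.C_mul_eq_smul]
    rfl

@[simp] theorem coeffNat_apply (θ h : LaurentSeries K) (n : ℕ) :
    coeffNat θ h n = (h * θ).coeff (n : ℤ) := rfl

/-- On a subspace where `h * θ` has no coefficients in negative degrees, `coeffNat θ` is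
injective (`θ ≠ 0`). -/
theorem coeffNat_injOn {θ : LaurentSeries K} (hθ : θ ≠ 0) (R : Submodule K (LaurentSeries K))
    (hneg : ∀ h ∈ R, ∀ k : ℤ, k < 0 → (h * θ).coeff k = 0) :
    Set.InjOn (coeffNat θ) (R : Set (LaurentSeries K)) := by
  intro h₁ hh₁ h₂ hh₂ he
  have hsub : h₁ - h₂ ∈ R := R.sub_mem hh₁ hh₂
  have hz : (h₁ - h₂) * θ = 0 := by
    ext k
    rcases lt_or_ge k 0 with hk | hk
    · simpa using hneg _ hsub k hk
    · obtain ⟨n, rfl⟩ := Int.eq_ofNat_of_zero_le hk
      have := congrFun he n
      simp only [coeffNat_apply] at this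
      simp [sub_mul, this]
  rcases mul_eq_zero.mp hz with h | h
  · exact sub_eq_zero.mp h
  · exact absurd h hθ

/-- The restriction of `coeffNat θ` to such a subspace, as an injective linear map. -/
theorem coeffNat_domRestrict_injective {θ : LaurentSeries K} (hθ : θ ≠ 0)
    (R : Submodule K (LaurentSeries K))
    (hneg : ∀ h ∈ R, ∀ k : ℤ, k < 0 → (h * θ).coeff k = 0) :
    Function.Injective ((coeffNat θ).domRestrict R) := by
  intro x y hxy
  exact Subtype.ext (coeffNat_injOn hθ R hneg x.2 y.2 hxy)

end Fermat.Agent.S20.DictRank
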