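/-
S20, piece (LOW-0) (helper25): linear independence of families of sequences / power series /
Laurent series is preserved when the coefficients are mapped along a homomorphism of fields.

Mathlib has the case of a FINITE coefficient index type (`linearIndependent_algebraMap_comp_iff`);
here the coefficient index type `κ` is arbitrary (`ℕ`, `ℤ`, ...).
-/
import Mathlib

set_option autoImplicit false

namespace Fermat.Agent.S20.IndepBaseChange

open Module

variable {K L : Type*} [Field K] [Field L] {ι κ : Type*}

/-- **Base change of linear independence, coefficientwise.**  If the family `v i : κ → K` is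
linearly independent over `K` then the family `f ∘ v i : κ → L` is linearly independent over `L`,
for any ring homomorphism `f : K →+* L` of fields. -/
theorem linearIndependent_map (f : K →+* L) {v : ι → κ → K} (hv : LinearIndependent K v) :
    LinearIndependent L (fun i => fun k => f (v i k)) := by
  classical
  let _ : Algebra K L := f.toAlgebra
  have hfa : ∀ a : K, f a = algebraMap K L a := fun _ => rfl
  let b := Basis.ofVectorSpace K L
  rw [linearIndependent_iff'] at hv ⊢
  intro s g hg i hi
  apply b.ext_elem
  intro α
  have key : ∑ j ∈ s, (b.coord α (g j)) • v j = 0 := by
    funext k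
    have hk := congrFun hg k
    simp only [Finset.sum_apply, Pi.smul_apply, smul_eq_mul, Pi.zero_apply] at hk ⊢
    have h1 : ∀ j, g j * f (v j k) = (v j k) • g j := by
      intro j; rw [hfa, Algebra.smul_def, mul_comm]
    simp only [h1] at hk
    have h2 := congrArg (b.coord α) hk
    rw [map_sum, map_zero] at h2
    simp only [map_smul, smul_eq_mul] at h2
    rw [← h2]
    exact Finset.sum_congr rfl fun j _ => mul_comm _ _
  have h3 := hv s (fun j => b.coord α (g j)) key i hi
  simpa using h3

/-- The same for an algebra `L` over `K`. -/
theorem linearIndependent_algebraMap (K L : Type*) [Field K] [Field L] [Algebra K L]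
    {v : ι → κ → K} (hv : LinearIndependent K v) :
    LinearIndependent L (fun i => fun k => algebraMap K L (v i k)) :=
  linearIndependent_map (algebraMap K L) hv

/-- Converse (for injectivity one only needs that `f` is a ring homomorphism of fields). -/
theorem linearIndependent_of_map (f : K →+* L) {v : ι → κ → K}
    (hv : LinearIndependent L (fun i => fun k => f (v i k))) : LinearIndependent K v := by
  classical
  rw [linearIndependent_iff'] at hv ⊢
  intro s g hg i hi
  have key : ∑ j ∈ s, f (g j) • (fun k => f (v j k)) = 0 := by
    funext k
    have hk := congrArg f (congrFun hg k)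
    simp only [Finset.sum_apply, Pi.smul_apply, smul_eq_mul, Pi.zero_apply, map_sum, map_mul,
      map_zero] at hk ⊢
    exact hk
  have h := hv s (fun j => f (g j)) key i hi
  exact (map_eq_zero f).mp h

theorem linearIndependent_map_iff (f : K →+* L) {v : ι → κ → K} :
    LinearIndependent L (fun i => fun k => f (v i k)) ↔ LinearIndependent K v :=
  ⟨linearIndependent_of_map f, linearIndependent_map f⟩

/-! ### Power series -/

/-- Linear independence of power series is equivalent to that of their coefficient sequences. -/
theorem linearIndependent_powerSeries_iff {R : Type*} [Field R] {p : ι → PowerSeries R} :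
    LinearIndependent R p ↔ LinearIndependent R (fun i => fun n : ℕ => PowerSeries.coeff n (p i)) := by
  let e : PowerSeries R →ₗ[R] (ℕ → R) :=
    { toFun := fun q n => PowerSeries.coeff n q
      map_add' := fun _ _ => by funext n; simp
      map_smul' := fun _ _ => by funext n; simp }
  have he : Function.Injective e := fun q q' h => PowerSeries.ext fun n => congrFun h n
  exact (LinearMap.linearIndependent_iff_of_injOn e he.injOn).symm

/-- **Power series**: `K`-linearly independent power series stay linearly independent over `L`
after applying `PowerSeries.map f`. -/
theorem linearIndependent_powerSeries_map (f : K →+* L) {p : ι → PowerSeries K}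
    (hp : LinearIndependent K p) :
    LinearIndependent L (fun i => PowerSeries.map f (p i)) := by
  rw [linearIndependent_powerSeries_iff] at hp ⊢
  have h := linearIndependent_map f hp
  simpa only [PowerSeries.coeff_map] using h

/-! ### Hahn series (in particular Laurent series `HahnSeries ℤ K`) -/

/-- Linear independence of Hahn series is equivalent to that of their coefficient functions. -/
theorem linearIndependent_hahnSeries_iff {Γ : Type*} [PartialOrder Γ] {R : Type*} [Field R]
    {p : ι → HahnSeries Γ R} :
    LinearIndependent R p ↔ LinearIndependent R (fun i => (p i).coeff) := by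
  let e : HahnSeries Γ R →ₗ[R] (Γ → R) :=
    { toFun := fun q => q.coeff
      map_add' := fun _ _ => rfl
      map_smul' := fun _ _ => rfl }
  have he : Function.Injective e := fun q q' h => HahnSeries.ext h
  exact (LinearMap.linearIndependent_iff_of_injOn e he.injOn).symm

/-- **Hahn / Laurent series**: if `p i` are `K`-linearly independent and `q i` has coefficients
`f ((p i).coeff n)`, then the `q i` are `L`-linearly independent. -/
theorem linearIndependent_hahnSeries_of_coeff {Γ : Type*} [PartialOrder Γ] (f : K →+* L)
    {p : ι → HahnSeries Γ K} {q : ι → HahnSeries Γ L}
    (hpq : ∀ i n, (q i).coeff n = f ((p i).coeff n)) (hp : LinearIndependent K p) :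
    LinearIndependent L q := by
  rw [linearIndependent_hahnSeries_iff] at hp ⊢
  have h := linearIndependent_map f hp
  have e : (fun i => (q i).coeff) = fun i => fun n => f ((p i).coeff n) := by
    funext i n; exact hpq i n
  rw [e]; exact h

/-- `HahnSeries.map` version. -/
theorem linearIndependent_hahnSeries_map {Γ : Type*} [PartialOrder Γ] (f : K →+* L)
    {p : ι → HahnSeries Γ K} (hp : LinearIndependent K p) :
    LinearIndependent L (fun i => (p i).map f) :=
  linearIndependent_hahnSeries_of_coeff f (fun _ _ => rfl) hp

/-! ### Functions into `ℂ`-like targets: finrank form -/

/-- A finite-dimensional `K`-subspace `V` of `κ → K`: the `L`-span of its image under `f` has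
`L`-dimension equal to `finrank K V`. -/
theorem finrank_span_map (f : K →+* L) (V : Submodule K (κ → K)) [FiniteDimensional K V] :
    Module.finrank L (Submodule.span L (Set.range fun x : V => fun k => f ((x : κ → K) k))) =
      Module.finrank K V := by
  classical
  let b := Module.finBasis K V
  have hb : LinearIndependent K (fun i => ((b i : V) : κ → K)) :=
    b.linearIndependent.map' V.subtype (Submodule.ker_subtype V)
  have hL := linearIndependent_map f hb
  have hspan : Submodule.span L (Set.range fun x : V => fun k => f ((x : κ → K) k)) =
      Submodule.span L (Set.range fun i => fun k => f (((b i : V) : κ → K) k)) := by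
    apply le_antisymm
    · rw [Submodule.span_le]
      rintro _ ⟨x, rfl⟩
      have hx : x = ∑ i, b.repr x i • b i := (b.sum_repr x).symm
      have hx' : (fun k => f ((x : κ → K) k)) =
          ∑ i, f (b.repr x i) • fun k => f (((b i : V) : κ → K) k) := by
        funext k
        have := congrArg (fun y : V => f ((y : κ → K) k)) hx
        simp only [Submodule.coe_sum, Submodule.coe_smul, Finset.sum_apply, Pi.smul_apply,
          smul_eq_mul, map_sum, map_mul] at this ⊢
        exact this
      show (fun k => f ((x : κ → K) k)) ∈ _
      rw [hx']
      exact Submodule.sum_mem _ fun i _ =>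
        Submodule.smul_mem _ _ (Submodule.subset_span ⟨i, rfl⟩)
    · apply Submodule.span_mono
      rintro _ ⟨i, rfl⟩
      exact ⟨b i, rfl⟩
  rw [hspan, finrank_span_eq_card hL]
  simp

end Fermat.Agent.S20.IndepBaseChange
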