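/-
Program C / S20 (LOW-1, helper16): the weight-2 form `jD = D j = -E₄² E₆ / Δ`
(normalised derivative of the `j`-function).

* `jD_eq_D`        : `jD = D jFun`;
* `mdiff_jD`       : holomorphic on `ℍ`;
* `jD_smul`        : `jD (γ • z) = denom γ z ^ 2 * jD z` for `γ ∈ SL(2, ℤ)`;
* `ordH_jD_add_one`: `ordH jD z₀ + 1 = ellOrder z₀`;
* `isQExp_jD`      : `jD` has the `q`-expansion `q⁻¹ · ∑ (n - 1) cₙ qⁿ`, `cₙ` the coefficients of `q j`.
-/
import Fermat.Agent.X0.JOrderMain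
import Fermat.Agent.X0.JInjective
import Fermat.Agent.X0.QExpRing

set_option autoImplicit false

open UpperHalfPlane hiding I
open Real Complex Filter Function
open scoped Manifold MatrixGroups ModularForm Topology

noncomputable section

namespace Fermat.Agent.S20.JDeriv

open Derivative EisensteinSeries ModularForm Fermat.Agent.X0 Fermat.Agent.X0.JOrder
  Fermat.Agent.X0.JOrderMain

local notation "Δ" => ModularForm.discriminant

/-- The weight-2 meromorphic modular form `D j = -E₄² E₆ / Δ` (holomorphic on `ℍ`, simple pole at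
`∞`). -/
def jD (z : ℍ) : ℂ := -E₄ z ^ 2 * E₆ z / Δ z

theorem jD_eq_D : jD = D jFun := by
  funext z
  rw [D_jFun, jD]

theorem mdiff_jD : MDiff jD := by
  have h : MDiff (fun z : ℍ => -E₄ z ^ 2 * E₆ z) := ((mdiff_E₄.pow 2).neg).mul mdiff_E₆
  exact h.div mdiff_discriminant discriminant_ne_zero

theorem jD_mem_HolH : jD ∈ HolH := mdiff_jD

/-- weight-2 transformation law under `SL(2, ℤ)`. -/
theorem jD_smul (γ : SL(2, ℤ)) (z : ℍ) : jD (γ • z) = denom γ z ^ 2 * jD z := by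
  have hd : denom γ z ≠ 0 := denom_ne_zero γ z
  have hΔ : Δ z ≠ 0 := discriminant_ne_zero z
  rw [jD, jD, E₄_smul, E₆_smul, discriminant_smul]
  have h4 : denom γ z ^ (4 : ℤ) = denom γ z ^ 4 := by norm_cast
  have h6 : denom γ z ^ (6 : ℤ) = denom γ z ^ 6 := by norm_cast
  have h12 : denom γ z ^ (12 : ℤ) = denom γ z ^ 12 := by norm_cast
  rw [h4, h6, h12]
  field_simp

/-- the derivative of `j ∘ ofComplex` on the upper half plane. -/
theorem deriv_jFun_eq {w : ℂ} (hw : 0 < w.im) :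
    deriv (jFun ∘ ofComplex) w = 2 * π * I * (jD ∘ ofComplex) w := by
  have h := (hasDerivAt_jFun ⟨w, hw⟩).deriv
  have hc : ((⟨w, hw⟩ : ℍ) : ℂ) = w := rfl
  rw [hc] at h
  rw [h, Function.comp_apply, ofComplex_apply_of_im_pos hw, jD]

/-- **Order of `D j`**: one less than the ramification order of `j`. -/
theorem ordH_jD_add_one (z₀ : ℍ) : ordH jD z₀ + 1 = ellOrder z₀ := by
  have hinj : JInj := fun z w h => exists_SL2_smul_eq_of_jFun_eq h
  rw [ellOrder_eq_ordE_of_inj hinj, ← analyticOrderAt_jFun z₀]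
  have han := analyticAt_jFun z₀
  have h1 := han.analyticOrderAt_deriv_add_one
  have h2 : analyticOrderAt (deriv (jFun ∘ ofComplex)) (z₀ : ℂ) = ordH jD z₀ := by
    rw [ordH]
    have hev : deriv (jFun ∘ ofComplex) =ᶠ[𝓝 (z₀ : ℂ)]
        fun w => (2 * π * I) * (jD ∘ ofComplex) w := by
      filter_upwards [isOpen_upperHalfPlaneSet.mem_nhds z₀.im_pos] with w hw
      exact deriv_jFun_eq hw
    rw [analyticOrderAt_congr hev]
    have hc : AnalyticAt ℂ (fun _ : ℂ => (2 * π * I : ℂ)) (z₀ : ℂ) := analyticAt_const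
    have hj : AnalyticAt ℂ (jD ∘ ofComplex) (z₀ : ℂ) := analyticAt_comp_ofComplex mdiff_jD z₀
    have := analyticOrderAt_mul hc hj
    have h0 : analyticOrderAt (fun _ : ℂ => (2 * π * I : ℂ)) (z₀ : ℂ) = 0 := by
      rw [hc.analyticOrderAt_eq_zero]; exact two_pi_I_ne_zero'
    rw [h0, zero_add] at this
    exact this
  rw [← h2]
  convert h1 using 2
  simp [Function.comp]

/-! ### the `q`-expansion of `D j` -/

open Fermat.Agent.X0.JQExp

local notation "𝕢" => Function.Periodic.qParam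

/-- Taylor coefficients of the derivative. -/
theorem tps_deriv_coeff (f : ℂ → ℂ) (m : ℕ) :
    PowerSeries.coeff m (tps (deriv f)) = ((m : ℂ) + 1) * PowerSeries.coeff (m + 1) (tps f) := by
  rw [tps_coeff, tps_coeff, ← iteratedDeriv_succ', Nat.factorial_succ]
  have h1 : ((m.factorial : ℕ) : ℂ) ≠ 0 := by exact_mod_cast Nat.factorial_ne_zero m
  have h2 : ((m : ℂ) + 1) ≠ 0 := by exact_mod_cast Nat.succ_ne_zero m
  push_cast
  field_simp

/-- the function `q ↦ q G'(q) - G(q)`, `G = q j`, on the unit disc. -/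
def jDDisc (q : ℂ) : ℂ := q * deriv jDisc q - jDisc q

theorem differentiableOn_deriv_jDisc : DifferentiableOn ℂ (deriv jDisc) (Metric.ball 0 1) :=
  differentiableOn_jDisc.deriv Metric.isOpen_ball

theorem differentiableOn_jDDisc : DifferentiableOn ℂ jDDisc (Metric.ball 0 1) :=
  (differentiableOn_id.mul differentiableOn_deriv_jDisc).sub differentiableOn_jDisc

/-- the formal series `∑ (n - 1) cₙ qⁿ` over `ℤ`. -/
def jDNum : PowerSeries ℤ :=
  PowerSeries.mk fun n => ((n : ℤ) - 1) * PowerSeries.coeff n ModularCurve.jNum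

theorem coeff_jDNum (n : ℕ) :
    PowerSeries.coeff n jDNum = ((n : ℤ) - 1) * PowerSeries.coeff n ModularCurve.jNum := by
  rw [jDNum, PowerSeries.coeff_mk]

theorem coeff_zero_jDNum : PowerSeries.coeff 0 jDNum = -1 := by
  rw [coeff_jDNum, PowerSeries.coeff_zero_eq_constantCoeff_apply, ModularCurve.constantCoeff_jNum]
  simp

theorem tps_jDDisc : tps jDDisc = PowerSeries.map (Int.castRingHom ℂ) jDNum := by
  have hG : AnalyticAt ℂ jDisc 0 :=
    analyticAt_of_differentiableOn_ball differentiableOn_jDisc (by simp)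
  have hG' : AnalyticAt ℂ (deriv jDisc) 0 :=
    analyticAt_of_differentiableOn_ball differentiableOn_deriv_jDisc (by simp)
  have hid : AnalyticAt ℂ (fun q : ℂ => q ^ 1) 0 := (analyticAt_id).pow 1
  have e : jDDisc = (fun q : ℂ => q ^ 1) * deriv jDisc - jDisc := by
    funext q; simp [jDDisc]
  rw [e, tps_sub (hid.mul hG') hG, tps_mul hid hG', tps_monomial, tps_jDisc, pow_one]
  ext n
  rw [map_sub, PowerSeries.coeff_map, PowerSeries.coeff_map, coeff_jDNum]
  rcases n with _ | n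
  · simp
  · rw [PowerSeries.coeff_succ_X_mul, tps_deriv_coeff, tps_jDisc, PowerSeries.coeff_map]
    simp only [eq_intCast]
    push_cast
    ring

/-- `q · D j = q G'(q) - G(q)` at `q = q(τ)`. -/
theorem jD_mul_qParam (τ : ℍ) : jD τ * 𝕢 1 τ = jDDisc (𝕢 1 τ) := by
  have hq0 : 𝕢 1 (τ : ℂ) ≠ 0 := Function.Periodic.qParam_ne_zero _
  have hq1 : ‖𝕢 1 (τ : ℂ)‖ < 1 := by simpa using norm_qParam_lt_one 1 τ
  -- derivative of `w ↦ G(q(w)) / q(w)` at `τ`
  have hq : HasDerivAt (fun w : ℂ => 𝕢 1 w) (2 * π * I * 𝕢 1 (τ : ℂ)) (τ : ℂ) := by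
    have h1 : HasDerivAt (fun w : ℂ => 2 * π * I * w / (1 : ℝ)) (2 * π * I) (τ : ℂ) := by
      simpa using ((hasDerivAt_id (τ : ℂ)).const_mul (2 * π * I)).div_const ((1 : ℝ) : ℂ)
    have h2 := h1.cexp
    simp only [Function.Periodic.qParam]
    exact h2.congr_deriv (by ring)
  have hG : HasDerivAt jDisc (deriv jDisc (𝕢 1 (τ : ℂ))) (𝕢 1 (τ : ℂ)) :=
    (analyticAt_of_differentiableOn_ball differentiableOn_jDisc hq1).differentiableAt.hasDerivAt
  have hcomp : HasDerivAt (fun w : ℂ => jDisc (𝕢 1 w))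
      (deriv jDisc (𝕢 1 (τ : ℂ)) * (2 * π * I * 𝕢 1 (τ : ℂ))) (τ : ℂ) := hG.comp (τ : ℂ) hq
  have hquot := hcomp.fun_div hq hq0
  -- the quotient is `j ∘ ofComplex` near `τ`
  have hev : (fun w : ℂ => jDisc (𝕢 1 w) / 𝕢 1 w) =ᶠ[𝓝 (τ : ℂ)] jFun ∘ ofComplex := by
    filter_upwards [isOpen_upperHalfPlaneSet.mem_nhds τ.im_pos] with w hw
    have hw0 : 𝕢 1 w ≠ 0 := Function.Periodic.qParam_ne_zero _
    have := jDisc_qParam ⟨w, hw⟩
    have hc : ((⟨w, hw⟩ : ℍ) : ℂ) = w := rfl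
    rw [hc] at this
    rw [this, Function.comp_apply, ofComplex_apply_of_im_pos hw, jFun]
    field_simp
  have hd := (hev.hasDerivAt_iff.mp hquot).unique (hasDerivAt_jFun τ)
  have h2pi : (2 * π * I : ℂ) ≠ 0 := two_pi_I_ne_zero'
  rw [jDDisc, jD]
  have hΔ : Δ τ ≠ 0 := discriminant_ne_zero τ
  field_simp at hd ⊢
  linear_combination (-1 : ℂ) * hd

/-- **`q`-expansion of `D j`**: `jD · q = ∑ (n - 1) cₙ qⁿ`. -/
theorem isQExp_jD : IsQExp 1 jD 1 (jDNum.map (Int.castRingHom ℂ)) := by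
  intro z
  have hq : qh 1 z = 𝕢 1 (z : ℂ) := by simp [qh]
  have hq1 : ‖𝕢 1 (z : ℂ)‖ < 1 := by simpa using norm_qParam_lt_one 1 z
  rw [hq, pow_one, jD_mul_qParam, ← tps_jDDisc]
  exact hasSum_tps differentiableOn_jDDisc hq1

/-- the same series over `ℚbar`. -/
def jDNumK : PowerSeries Kbar := jDNum.map (Int.castRingHom Kbar)

theorem jDNumK_map : jDNumK.map iotaK = jDNum.map (Int.castRingHom ℂ) := by
  ext n
  simp [jDNumK, PowerSeries.coeff_map]

theorem coeff_zero_jDNumK : PowerSeries.coeff 0 jDNumK = -1 := by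
  rw [jDNumK, PowerSeries.coeff_map, coeff_zero_jDNum]
  simp

theorem isQExp_jD_K : IsQExp 1 jD 1 (jDNumK.map iotaK) := by
  rw [jDNumK_map]; exact isQExp_jD

end Fermat.Agent.S20.JDeriv
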